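import Fermat.Agent.Catalan.StickelbergerAll

/-!
# The conjugates of a degree one prime of `ℚ(ζ_m)` and its residue character

For a prime `v` of `ℚ(ζ_m)` of prime norm `q`, not containing `m`: `m ∣ q - 1`, the primes `σ⁻¹ v` are distinct with
product `(q)`, and the Teichmüller character of order `m` is moved by `σ` to its `a(σ)`-th power.
-/

set_option autoImplicit false

noncomputable section

open NumberField IsDedekindDomain
open scoped Classical nonZeroDivisors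

namespace FA.IwasawaStructure

variable {m : ℕ} [NeZero m] {K : Type*} [Field K] [NumberField K] [IsCyclotomicExtension {m} ℚ K]

variable (m) in
/-- The exponent `a(σ)` of an automorphism. -/
def expo (σ : K ≃ₐ[ℚ] K) : ℕ := ((IsCyclotomicExtension.Rat.galEquivZMod m K σ : (ZMod m)ˣ) : ZMod m).val

/-- An automorphism on the ring of integers. -/
def intAut (σ : K ≃ₐ[ℚ] K) : 𝓞 K ≃+* 𝓞 K := RingOfIntegers.mapRingEquiv σ.toRingEquiv

omit [IsCyclotomicExtension {m} ℚ K] in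
theorem intAut_coe (σ : K ≃ₐ[ℚ] K) (x : 𝓞 K) : ((intAut σ x : 𝓞 K) : K) = σ (x : K) := rfl

theorem intAut_of_pow_eq_one (σ : K ≃ₐ[ℚ] K) {x : 𝓞 K} (hx : x ^ m = 1) : intAut σ x = x ^ expo m σ :=
  IsCyclotomicExtension.Rat.galEquivZMod_smul_of_pow_eq m K σ hx

theorem coprime_expo (σ : K ≃ₐ[ℚ] K) : (expo m σ).Coprime m :=
  ZMod.val_coe_unit_coprime _

/-- The conjugate `σ⁻¹ v`. -/
def conjAt (v : HeightOneSpectrum (𝓞 K)) (σ : K ≃ₐ[ℚ] K) : HeightOneSpectrum (𝓞 K) :=
  FA.Ext.conjPrime (intAut σ⁻¹) v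

omit [IsCyclotomicExtension {m} ℚ K] in
theorem intAut_mul_inv (σ : K ≃ₐ[ℚ] K) (x : 𝓞 K) : intAut σ⁻¹ (intAut σ x) = x :=
  RingOfIntegers.ext (σ.symm_apply_apply (x : K))

omit [IsCyclotomicExtension {m} ℚ K] in
theorem intAut_symm (σ : K ≃ₐ[ℚ] K) (x : 𝓞 K) : (intAut σ⁻¹).symm x = intAut σ x :=
  (intAut σ⁻¹).injective (by rw [RingEquiv.apply_symm_apply, intAut_mul_inv])

theorem mem_conjAt {v : HeightOneSpectrum (𝓞 K)} {σ : K ≃ₐ[ℚ] K} {x : 𝓞 K} :
    x ∈ (conjAt v σ).asIdeal ↔ intAut σ x ∈ v.asIdeal := by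
  rw [conjAt, FA.Ext.mem_conjPrime, intAut_symm]

section residue

variable {q : ℕ} [Fact q.Prime] {v : HeightOneSpectrum (𝓞 K)} {π : 𝓞 K →+* ZMod q}

omit [NumberField K] [IsCyclotomicExtension {m} ℚ K] in
/-- Reduction at `v` is injective on `m`-th roots of unity. -/
theorem eq_of_residue_eq (hπ : ∀ x, π x = 0 ↔ x ∈ v.asIdeal) (hvm : (m : 𝓞 K) ∉ v.asIdeal) {a b : 𝓞 K}
    (ha : a ^ m = 1) (hb : b ^ m = 1) (h : π a = π b) : a = b := by
  have hm := NeZero.ne m
  set e := a * b ^ (m - 1) with he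
  have hbm : b * b ^ (m - 1) = 1 := by rw [← pow_succ', Nat.sub_add_cancel (NeZero.pos m), hb]
  have he1 : π e = 1 := by rw [he, map_mul, h, ← map_mul, hbm, map_one]
  have hem : e ^ m = 1 := by rw [he, mul_pow, ha, one_mul, ← pow_mul, mul_comm, pow_mul, hb, one_pow]
  rcases eq_or_ne e 1 with h1 | h1
  · calc a = e * b := by rw [he, mul_assoc, mul_comm _ b, hbm, mul_one]
      _ = b := by rw [h1, one_mul]
  · exfalso
    refine hvm ((hπ _).mp ?_)
    have hg := geom_sum_mul e m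
    rw [hem, sub_self] at hg
    have h0 := congrArg π ((mul_eq_zero.mp hg).resolve_right (sub_ne_zero.mpr h1))
    rw [map_sum, map_zero] at h0
    simpa [map_pow, he1] using h0

theorem dvd_sub_one (hπ : ∀ x, π x = 0 ↔ x ∈ v.asIdeal) (hvm : (m : 𝓞 K) ∉ v.asIdeal) :
    IsPrimitiveRoot (π (IsCyclotomicExtension.zeta_spec m ℚ K).toInteger) m ∧ m ∣ q - 1 := by
  have hz := (IsCyclotomicExtension.zeta_spec m ℚ K).toInteger_isPrimitiveRoot
  set z := (IsCyclotomicExtension.zeta_spec m ℚ K).toInteger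
  have hω : IsPrimitiveRoot (π z) m := by
    refine ⟨by rw [← map_pow, hz.pow_eq_one, map_one], fun l hl => hz.dvd_of_pow_eq_one l ?_⟩
    exact eq_of_residue_eq hπ hvm (by rw [← pow_mul, mul_comm, pow_mul, hz.pow_eq_one, one_pow]) (one_pow m)
      (by rw [map_pow, hl, map_one])
  refine ⟨hω, hω.dvd_of_pow_eq_one _ (ZMod.pow_card_sub_one_eq_one fun h0 => ?_)⟩
  have := hω.pow_eq_one
  rw [h0, zero_pow (NeZero.ne m)] at this
  exact zero_ne_one this

/-- **The residue character of order `m`.** -/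
theorem exists_residueChar (hπ : ∀ x, π x = 0 ↔ x ∈ v.asIdeal) (hvm : (m : 𝓞 K) ∉ v.asIdeal) {r : ℕ}
    (hr : q - 1 = m * r) :
    ∃ χ : MulChar (ZMod q) (𝓞 K), χ ^ m = 1 ∧ (∀ x, π (χ x) = x ^ r) ∧
      ∀ σ : K ≃ₐ[ℚ] K, χ.ringHomComp (intAut σ).toRingHom = χ ^ expo m σ := by
  have hq : q.Prime := Fact.out
  have hr0 : r ≠ 0 := by
    rintro rfl
    have := hq.two_le
    omega
  have hz := (IsCyclotomicExtension.zeta_spec m ℚ K).toInteger_isPrimitiveRoot
  set z := (IsCyclotomicExtension.zeta_spec m ℚ K).toInteger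
  have hω := (dvd_sub_one hπ hvm).1
  have hroot : ∀ x : (ZMod q)ˣ, ∃ c : 𝓞 K, c ^ m = 1 ∧ π c = (x : ZMod q) ^ r := by
    intro x
    obtain ⟨i, -, hi⟩ := hω.eq_pow_of_pow_eq_one (ξ := (x : ZMod q) ^ r)
      (by rw [← pow_mul, mul_comm, ← hr, ZMod.pow_card_sub_one_eq_one x.ne_zero])
    exact ⟨z ^ i, by rw [← pow_mul, mul_comm, pow_mul, hz.pow_eq_one, one_pow], by rw [map_pow, hi]⟩
  choose c hc hcπ using hroot
  have hmul : ∀ x y, c (x * y) = c x * c y := fun x y =>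
    eq_of_residue_eq hπ hvm (hc _) (by rw [mul_pow, hc, hc, one_mul])
      (by rw [map_mul, hcπ, hcπ, hcπ, Units.val_mul, mul_pow])
  let f : (ZMod q)ˣ →* (𝓞 K)ˣ :=
    MonoidHom.mk' (fun x => Units.ofPowEqOne (c x) m (hc x) (NeZero.ne m)) fun x y => Units.ext (hmul x y)
  have hunit : ∀ x : (ZMod q)ˣ, MulChar.ofUnitHom f (x : ZMod q) = c x := fun x =>
    MulChar.ofUnitHom_coe f x
  refine ⟨MulChar.ofUnitHom f, MulChar.ext fun x => ?_, fun x => ?_, fun σ => MulChar.ext fun x => ?_⟩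
  · rw [MulChar.pow_apply_coe, hunit, hc, MulChar.one_apply_coe]
  · by_cases hx : IsUnit x
    · obtain ⟨u, rfl⟩ := hx
      rw [hunit, hcπ]
    · rw [MulChar.map_nonunit _ hx, map_zero, isUnit_iff_ne_zero, not_not] at *
      rw [hx, zero_pow hr0]
  · rw [MulChar.ringHomComp_apply, MulChar.pow_apply_coe, hunit]
    exact intAut_of_pow_eq_one σ (hc x)

/-- The conjugates are distinct. -/
theorem conjAt_injective (hπ : ∀ x, π x = 0 ↔ x ∈ v.asIdeal) (hvm : (m : 𝓞 K) ∉ v.asIdeal) :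
    Function.Injective (conjAt v) := by
  intro σ τ h
  have hz := (IsCyclotomicExtension.zeta_spec m ℚ K).toInteger_isPrimitiveRoot
  set z := (IsCyclotomicExtension.zeta_spec m ℚ K).toInteger with hzdef
  have key : ∀ x : 𝓞 K, π (intAut σ x) = π (intAut τ x) := fun x => by
    have hsurj : ((π (intAut σ x)).val : ZMod q) = π (intAut σ x) := ZMod.natCast_zmod_val _
    set k := (π (intAut σ x)).val
    have h1 : x - (k : 𝓞 K) ∈ (conjAt v σ).asIdeal := by
      rw [mem_conjAt, ← hπ, map_sub, map_natCast, map_sub, map_natCast, hsurj, sub_self]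
    rw [h, mem_conjAt, ← hπ, map_sub, map_natCast, map_sub, map_natCast, hsurj, sub_eq_zero] at h1
    exact h1.symm
  have hzm : z ^ m = 1 := hz.pow_eq_one
  have he := eq_of_residue_eq hπ hvm (by rw [← map_pow, hzm, map_one]) (by rw [← map_pow, hzm, map_one]) (key z)
  rw [intAut_of_pow_eq_one σ hzm, intAut_of_pow_eq_one τ hzm] at he
  refine (IsCyclotomicExtension.Rat.galEquivZMod m K).injective (Units.ext (ZMod.val_injective m ?_))
  exact hz.pow_inj (ZMod.val_lt _) (ZMod.val_lt _) he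

end residue

/-- The product of the conjugates. -/
theorem prod_conjAt {v : HeightOneSpectrum (𝓞 K)} (hvm : (m : 𝓞 K) ∉ v.asIdeal)
    (hv : (Ideal.absNorm v.asIdeal).Prime) :
    ∏ σ : K ≃ₐ[ℚ] K, (conjAt v σ).asIdeal = Ideal.span {((Ideal.absNorm v.asIdeal : ℕ) : 𝓞 K)} := by
  set q := Ideal.absNorm v.asIdeal with hq
  have : Fact q.Prime := ⟨hv⟩
  obtain ⟨π, hπ⟩ := FA.Ext.exists_residue_hom (K := K) (q := q) (v := v.asIdeal) rfl
  have hinj : Function.Injective fun σ : K ≃ₐ[ℚ] K => (conjAt v σ).asIdeal := fun σ τ h =>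
    conjAt_injective hπ hvm (HeightOneSpectrum.ext h)
  refine FA.Ext.eq_of_dvd_of_absNorm_eq ?_ (Finset.prod_ne_zero_iff.mpr fun σ _ => (conjAt v σ).ne_bot) ?_
  · rw [← Finset.prod_image (f := fun I : Ideal (𝓞 K) => I) hinj.injOn]
    refine Finset.prod_primes_dvd _ ?_ ?_ <;> intro I hI <;>
      obtain ⟨σ, -, rfl⟩ := Finset.mem_image.mp hI
    · exact (conjAt v σ).prime
    · refine Ideal.dvd_span_singleton.mpr ?_
      rw [mem_conjAt, map_natCast, ← hπ, map_natCast, ZMod.natCast_self]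
  · have : IsGalois ℚ K := IsCyclotomicExtension.isGalois {m} ℚ K
    rw [map_prod, Finset.prod_congr rfl fun σ _ => show Ideal.absNorm (conjAt v σ).asIdeal = q from
      FA.Ext.absNorm_conjPrime (intAut σ⁻¹) v, Finset.prod_const,
      Finset.card_univ, ← Nat.card_eq_fintype_card, IsGalois.card_aut_eq_finrank, Ideal.absNorm_span_singleton,
      ← map_natCast (algebraMap ℤ (𝓞 K)), Algebra.norm_algebraMap, Int.natAbs_pow, Int.natAbs_natCast,
      RingOfIntegers.rank]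

end FA.IwasawaStructure
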