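import Fermat.Agent.IwasawaStructure.JacobiSums

/-!
# Stickelberger's theorem for every conductor

For `K = ℚ(ζ_m)` and every `b` the product of the classes `σ⁻¹ C` with exponents `⌊b a(σ)/m⌋` is trivial: the Jacobi
sums `J(χ, χ^j)` generate the partial products at a degree one prime, and such primes generate the class group.
-/

set_option autoImplicit false

noncomputable section

open NumberField IsDedekindDomain
open scoped Classical nonZeroDivisors

namespace FA.IwasawaStructure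

variable {m : ℕ} [NeZero m] {K : Type*} [Field K] [NumberField K] [IsCyclotomicExtension {m} ℚ K]

/-- An automorphism on classes. -/
def classAut (σ : K ≃ₐ[ℚ] K) : ClassGroup (𝓞 K) ≃* ClassGroup (𝓞 K) := ClassGroup.mulEquiv (intAut σ)

omit [IsCyclotomicExtension {m} ℚ K] in
theorem classAut_mk0 (v : HeightOneSpectrum (𝓞 K)) (σ : K ≃ₐ[ℚ] K) :
    classAut σ⁻¹ (ClassGroup.mk0 (FA.Ext.primeIdeal v)) = ClassGroup.mk0 (FA.Ext.primeIdeal (conjAt v σ)) := by
  rw [classAut, ClassGroup.mulEquiv_mk0]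
  rfl

/-- The Jacobi sums give relations between the conjugates. -/
theorem prod_conjAt_pow_step (v : HeightOneSpectrum (𝓞 K)) (hvm : (m : 𝓞 K) ∉ v.asIdeal)
    (hv : (Ideal.absNorm v.asIdeal).Prime) {j : ℕ} (hj : 0 < j) (hjm : j + 1 < m) :
    ∏ σ : K ≃ₐ[ℚ] K, ClassGroup.mk0 (FA.Ext.primeIdeal (conjAt v σ)) ^
      ((j + 1) * expo m σ / m - j * expo m σ / m) = 1 := by
  set q := Ideal.absNorm v.asIdeal with hq
  have : Fact q.Prime := ⟨hv⟩
  obtain ⟨π, hπ⟩ := FA.Ext.exists_residue_hom (K := K) (q := q) (v := v.asIdeal) rfl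
  obtain ⟨r, hr⟩ := (dvd_sub_one hπ hvm).2
  obtain ⟨χ, hpow, hχ, hσ⟩ := exists_residueChar hπ hvm hr
  have hm0 : 0 < m := NeZero.pos m
  have hmod : ∀ t : ℕ, χ ^ t = χ ^ (t % m) := fun t => pow_eq_pow_mod t hpow
  set J := jacobiSum (χ ^ 1) (χ ^ j)
  set J' := jacobiSum (χ ^ (m - 1)) (χ ^ (m - j))
  have hJJ : J * J' = (q : 𝓞 K) :=
    FA.Ext.jacobiSum_mul_conj π hr hpow hχ one_pos (by omega) hj (by omega) (by omega)
  set e : (K ≃ₐ[ℚ] K) → ℕ := fun σ => (j + 1) * expo m σ / m - j * expo m σ / m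
  have hσJ : ∀ (σ : K ≃ₐ[ℚ] K) (a b : ℕ), intAut σ (jacobiSum (χ ^ a) (χ ^ b)) =
      jacobiSum (χ ^ (expo m σ * a % m)) (χ ^ (expo m σ * b % m)) := fun σ a b => by
    show (intAut σ).toRingHom (jacobiSum (χ ^ a) (χ ^ b)) = _
    rw [← jacobiSum_ringHomComp, ← MulChar.ringHomComp_pow,
      ← MulChar.ringHomComp_pow, hσ, ← pow_mul, ← pow_mul, hmod, hmod (expo m σ * b)]
  have key : ∀ σ : K ≃ₐ[ℚ] K, (e σ = 0 → J ∈ (conjAt v σ).asIdeal) ∧
      (e σ ≠ 0 → e σ = 1 ∧ J' ∈ (conjAt v σ).asIdeal) := by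
    intro σ
    set a := expo m σ with ha
    have hco : a.Coprime m := coprime_expo σ
    have hnd : ∀ t, 0 < t → t < m → a * t % m ≠ 0 := fun t h0 ht h => by
      have hd := Nat.le_of_dvd h0 (hco.symm.dvd_of_dvd_mul_left (Nat.dvd_of_mod_eq_zero h))
      omega
    have ham : a < m := ZMod.val_lt _
    have ha0 : 0 < a := Nat.pos_of_ne_zero fun h => hnd 1 one_pos (by omega) (by rw [h, zero_mul, Nat.zero_mod])
    have hlt := Nat.mod_lt (a * j) hm0
    have hr0 := hnd j hj (by omega)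
    have hrm : a + a * j % m ≠ m := fun h => hnd (j + 1) (by omega) hjm (by
      rw [show a * (j + 1) = a + a * j by ring, Nat.add_mod, Nat.mod_eq_of_lt ham, h, Nat.mod_self])
    have he : e σ = (a + a * j % m) / m := by
      have h1 : (j + 1) * a = a + a * j % m + m * (a * j / m) := by
        linarith [Nat.mod_add_div (a * j) m, show (j + 1) * a = a + a * j by ring]
      show (j + 1) * a / m - j * a / m = _
      rw [h1, Nat.add_mul_div_left _ _ hm0, mul_comm j a, Nat.add_sub_cancel]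
    have hneg : ∀ t, 0 < t → t < m → a * (m - t) % m = m - a * t % m := fun t h0 ht => by
      have h1 := hnd t h0 ht
      have h2 := hnd (m - t) (by omega) (by omega)
      have h3 : (a * (m - t) % m + a * t % m) % m = 0 := by
        rw [← Nat.add_mod, ← mul_add, Nat.sub_add_cancel ht.le, Nat.mul_mod_left]
      have h4 : a * (m - t) % m < m := Nat.mod_lt _ hm0
      have h5 : a * t % m < m := Nat.mod_lt _ hm0
      obtain ⟨s, hs⟩ := Nat.dvd_of_mod_eq_zero h3
      rcases s with _ | _ | s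
      · omega
      · omega
      · nlinarith
    have h1 : a * 1 % m = a := by rw [mul_one, Nat.mod_eq_of_lt ham]
    refine ⟨fun h => ?_, fun h => ⟨?_, ?_⟩⟩
    · rw [mem_conjAt, hσJ, ← ha, h1]
      refine FA.Ext.jacobiSum_mem π hπ hr hχ ha0.ne' hr0 ?_
      rw [he, Nat.div_eq_zero_iff] at h
      omega
    · rw [he] at h ⊢
      have : (a + a * j % m) / m < 2 := Nat.div_lt_of_lt_mul (by omega)
      omega
    · rw [mem_conjAt, hσJ, ← ha, hneg 1 one_pos (by omega), hneg j hj (by omega), h1]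
      refine FA.Ext.jacobiSum_mem π hπ hr hχ (by omega) (by omega) ?_
      rw [he, Ne, Nat.div_eq_zero_iff, not_or, not_lt] at h
      omega
  set S := (Finset.univ : Finset (K ≃ₐ[ℚ] K)).filter fun σ => e σ = 0
  set S' := (Finset.univ : Finset (K ≃ₐ[ℚ] K)).filter fun σ => ¬ e σ = 0
  set w : (K ≃ₐ[ℚ] K) → Ideal (𝓞 K) := fun σ => (conjAt v σ).asIdeal
  have hinj : Function.Injective w := fun σ τ h => conjAt_injective hπ hvm (HeightOneSpectrum.ext h)
  have hdvd : ∀ (s : Finset (K ≃ₐ[ℚ] K)) (x : 𝓞 K), (∀ σ ∈ s, x ∈ w σ) →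
      ∏ σ ∈ s, w σ ∣ Ideal.span {x} := fun s x hx => by
    rw [← Finset.prod_image (f := fun I : Ideal (𝓞 K) => I) hinj.injOn]
    refine Finset.prod_primes_dvd _ ?_ ?_ <;> intro I hI <;>
      obtain ⟨σ, hσs, rfl⟩ := Finset.mem_image.mp hI
    · exact (conjAt v σ).prime
    · exact Ideal.dvd_span_singleton.mpr (hx σ hσs)
  obtain ⟨X, hX⟩ := hdvd S J fun σ h => (key σ).1 (Finset.mem_filter.mp h).2
  obtain ⟨Y, hY⟩ := hdvd S' J' fun σ h => ((key σ).2 (Finset.mem_filter.mp h).2).2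
  have htot : (∏ σ ∈ S, w σ) * ∏ σ ∈ S', w σ = Ideal.span {(q : 𝓞 K)} := by
    rw [Finset.prod_filter_mul_prod_filter_not]
    exact prod_conjAt hvm hv
  have hXY : X * Y = 1 := by
    refine mul_left_cancel₀ (a := Ideal.span {(q : 𝓞 K)}) ?_ ?_
    · simp [hv.ne_zero]
    · rw [mul_one]
      nth_rewrite 1 [← htot]
      rw [← hJJ, ← Ideal.span_singleton_mul_span_singleton, hX, hY]
      ring
  rw [eq_one_of_mul_left hXY, mul_one] at hY
  have hB0 : (∏ σ ∈ S', w σ) ≠ ⊥ := Finset.prod_ne_zero_iff.mpr fun σ _ => (conjAt v σ).ne_bot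
  calc ∏ σ : K ≃ₐ[ℚ] K, ClassGroup.mk0 (FA.Ext.primeIdeal (conjAt v σ)) ^ e σ
      = ∏ σ ∈ S', ClassGroup.mk0 (FA.Ext.primeIdeal (conjAt v σ)) := by
        rw [← Finset.prod_filter_mul_prod_filter_not Finset.univ (fun σ => e σ = 0),
          Finset.prod_eq_one (s := S) fun σ h => by rw [(Finset.mem_filter.mp h).2, pow_zero], one_mul]
        exact Finset.prod_congr rfl fun σ h => by
          rw [((key σ).2 (Finset.mem_filter.mp h).2).1, pow_one]
    _ = ClassGroup.mk0 ⟨∏ σ ∈ S', w σ, mem_nonZeroDivisors_iff_ne_zero.mpr hB0⟩ := by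
        rw [← map_prod]
        congr 1
        exact Subtype.ext (by rw [SubmonoidClass.coe_finsetProd]; rfl)
    _ = 1 := (ClassGroup.mk0_eq_one_iff _).mpr ⟨⟨J', hY.symm⟩⟩

omit [IsCyclotomicExtension {m} ℚ K] in
/-- A relation at the degree one primes prime to `m` holds at every class. -/
theorem prod_classAut_pow_eq_one (e : (K ≃ₐ[ℚ] K) → ℕ)
    (h : ∀ v : HeightOneSpectrum (𝓞 K), (m : 𝓞 K) ∉ v.asIdeal → (Ideal.absNorm v.asIdeal).Prime →
      ∏ σ : K ≃ₐ[ℚ] K, ClassGroup.mk0 (FA.Ext.primeIdeal (conjAt v σ)) ^ e σ = 1)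
    (C : ClassGroup (𝓞 K)) : ∏ σ : K ≃ₐ[ℚ] K, classAut σ⁻¹ C ^ e σ = 1 := by
  let Θ : ClassGroup (𝓞 K) →* ClassGroup (𝓞 K) :=
    { toFun := fun C => ∏ σ : K ≃ₐ[ℚ] K, classAut σ⁻¹ C ^ e σ
      map_one' := Finset.prod_eq_one fun σ _ => by rw [map_one, one_pow]
      map_mul' := fun C D => by
        rw [← Finset.prod_mul_distrib]
        exact Finset.prod_congr rfl fun σ _ => by rw [map_mul, mul_pow] }
  have hfin : {v : HeightOneSpectrum (𝓞 K) | (m : 𝓞 K) ∈ v.asIdeal}.Finite := by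
    refine (Ideal.finite_factors (I := Ideal.span {(m : 𝓞 K)}) ?_).subset
      fun v hv => Ideal.dvd_span_singleton.mpr hv
    simp [NeZero.ne m]
  have hle : Subgroup.closure (FA.Catalan.degreeOneClasses {v : HeightOneSpectrum (𝓞 K) | (m : 𝓞 K) ∈ v.asIdeal}) ≤
      Θ.ker := (Subgroup.closure_le _).mpr fun D ⟨v, hvS, hv, hD⟩ => by
    rw [SetLike.mem_coe, MonoidHom.mem_ker, hD]
    show ∏ σ : K ≃ₐ[ℚ] K, classAut σ⁻¹ (ClassGroup.mk0 (FA.Ext.primeIdeal v)) ^ e σ = 1
    rw [Finset.prod_congr rfl fun σ _ => congrArg (· ^ e σ) (classAut_mk0 v σ)]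
    exact h v hvS hv
  rw [FA.Catalan.closure_degreeOneClasses hfin] at hle
  exact MonoidHom.mem_ker.mp (hle (Subgroup.mem_top C))

variable (m) in
include m in
/-- **The norm of a class is trivial.** -/
theorem prod_classAut_eq_one (C : ClassGroup (𝓞 K)) : ∏ σ : K ≃ₐ[ℚ] K, classAut σ⁻¹ C = 1 := by
  have h := prod_classAut_pow_eq_one (m := m) (fun _ => 1) (fun v hvm hv => by
    simp only [pow_one]
    rw [← map_prod]
    set P : (Ideal (𝓞 K))⁰ := ∏ σ : K ≃ₐ[ℚ] K, FA.Ext.primeIdeal (conjAt v σ) with hP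
    have hPv : (P : Ideal (𝓞 K)) = Ideal.span {((Ideal.absNorm v.asIdeal : ℕ) : 𝓞 K)} := by
      rw [hP, Submonoid.coe_finsetProd]
      exact prod_conjAt hvm hv
    exact (ClassGroup.mk0_eq_one_iff P.2).mpr ⟨⟨_, hPv.trans Ideal.submodule_span_eq.symm⟩⟩) C
  simpa only [pow_one] using h

/-- **Stickelberger's theorem**, `b < m`. -/
theorem stickelberger_lt : ∀ b, b < m → ∀ C : ClassGroup (𝓞 K),
    ∏ σ : K ≃ₐ[ℚ] K, classAut σ⁻¹ C ^ (b * expo m σ / m) = 1 := by
  intro b
  induction b with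
  | zero => intro _ C; simp
  | succ j ih =>
    intro hj C
    rcases Nat.eq_zero_or_pos j with rfl | hj0
    · exact Finset.prod_eq_one fun σ _ => by
        rw [zero_add, one_mul, Nat.div_eq_of_lt (show expo m σ < m from ZMod.val_lt _), pow_zero]
    · have h := prod_classAut_pow_eq_one (fun σ => (j + 1) * expo m σ / m - j * expo m σ / m)
        (fun v hvm hv => prod_conjAt_pow_step v hvm hv hj0 hj) C
      calc _ = (∏ σ : K ≃ₐ[ℚ] K, classAut σ⁻¹ C ^ (j * expo m σ / m)) *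
            ∏ σ : K ≃ₐ[ℚ] K, classAut σ⁻¹ C ^ ((j + 1) * expo m σ / m - j * expo m σ / m) := by
            rw [← Finset.prod_mul_distrib]
            refine Finset.prod_congr rfl fun σ _ => ?_
            rw [← pow_add, Nat.add_sub_cancel' (Nat.div_le_div_right
              (Nat.mul_le_mul_right _ (Nat.le_succ j)))]
        _ = 1 := by rw [ih (by omega) C, h, one_mul]

/-- The element `m θ` kills every class. -/
theorem prod_classAut_pow_expo (C : ClassGroup (𝓞 K)) : ∏ σ : K ≃ₐ[ℚ] K, classAut σ⁻¹ C ^ expo m σ = 1 := by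
  rcases Nat.lt_or_ge 1 m with hm | hm
  · have hb := stickelberger_lt (m := m) (m - 1) (by omega) C
    have key : ∀ σ : K ≃ₐ[ℚ] K, expo m σ = (m - 1) * expo m σ / m + 1 := fun σ => by
      have ha : expo m σ < m := ZMod.val_lt _
      have ha0 : 0 < expo m σ := Nat.pos_of_ne_zero fun h => by
        have := coprime_expo (m := m) σ
        rw [h, Nat.coprime_zero_left] at this
        omega
      have e : (m - 1) * expo m σ = (m - expo m σ) + m * (expo m σ - 1) := by
        zify [show 1 ≤ m by omega, ha.le, show 1 ≤ expo m σ from ha0]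
        ring
      rw [e, Nat.add_mul_div_left _ _ (by omega), Nat.div_eq_of_lt (by omega)]
      omega
    rw [Finset.prod_congr rfl fun σ _ => congrArg (classAut σ⁻¹ C ^ ·) (key σ)]
    simp only [pow_succ, Finset.prod_mul_distrib, hb, prod_classAut_eq_one m C, mul_one]
  · refine Finset.prod_eq_one fun σ _ => ?_
    rw [show expo m σ = 0 by have : expo m σ < m := ZMod.val_lt _; omega, pow_zero]

/-- **Stickelberger's theorem for every conductor.** -/
theorem stickelberger_all (b : ℕ) (C : ClassGroup (𝓞 K)) :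
    ∏ σ : K ≃ₐ[ℚ] K, classAut σ⁻¹ C ^ (b * expo m σ / m) = 1 := by
  have h : ∀ a, b * a / m = b / m * a + b % m * a / m := fun a => by
    conv_lhs => rw [← Nat.div_add_mod b m, add_mul, mul_assoc, Nat.mul_add_div (NeZero.pos m)]
  simp only [h, pow_add, Finset.prod_mul_distrib, mul_comm (b / m), pow_mul, Finset.prod_pow,
    prod_classAut_pow_expo (m := m) C, stickelberger_lt (b % m) (Nat.mod_lt _ (NeZero.pos m)) C, one_pow, mul_one]

end FA.IwasawaStructure
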