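import Fermat.Agent.ClassField94.Capitulation

/-!
# Fixed minus classes are extended

`L/F` is cyclic of CM fields with generator `σ`, unramified outside one principal prime, and every root of unity of `F`
is a norm. A class of `L` of odd order fixed by `σ` and inverted by conjugation is extended from `F`; in general
`x ^ 2 / x ^ d` is extended.
-/

set_option autoImplicit false

noncomputable section

open NumberField NumberField.IsCMField
open scoped nonZeroDivisors Pointwise Classical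

namespace FA.IwasawaStructure

open FA.CycloTower FA.ClassField94

variable {F L : Type} [Field F] [NumberField F] [IsCMField F] [Field L] [NumberField L] [IsCMField L] [Algebra F L]
  [IsGalois F L] {π : 𝓞 L}

omit [NumberField F] [IsCMField F] [NumberField L] [IsCMField L] [IsGalois F L] in
theorem smul_prod_erase (σ : L ≃ₐ[F] L) [Fintype (L ≃ₐ[F] L)] (B : Ideal (𝓞 L)) :
    (σ • ∏ g ∈ (Finset.univ : Finset (L ≃ₐ[F] L)).erase 1, g • B) * σ • B =
      (∏ g ∈ (Finset.univ : Finset (L ≃ₐ[F] L)).erase 1, g • B) * B := by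
  have h : ∀ τ : L ≃ₐ[F] L, (τ • ∏ g ∈ (Finset.univ : Finset (L ≃ₐ[F] L)).erase 1, g • B) * τ • B =
      ∏ g : L ≃ₐ[F] L, g • B := fun τ => by
    rw [← Finset.prod_erase_mul Finset.univ (fun g : L ≃ₐ[F] L => g • B) (Finset.mem_univ τ), Finset.smul_prod']
    congr 1
    refine Finset.prod_bij (fun g _ => τ * g) (fun g hg => ?_) (fun a _ b _ e => mul_left_cancel e)
      (fun g hg => ⟨τ⁻¹ * g, ?_, mul_inv_cancel_left τ g⟩) fun g _ => (mul_smul τ g B).symm
    · simpa using hg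
    · simpa [inv_mul_eq_one, eq_comm] using hg
  rw [h σ, ← h 1, one_smul, one_smul]

/-- A fixed minus class `x` gives the extended class `x ^ 2 / x ^ d`. -/
theorem sq_div_pow_mem_range_of_fixed {σ : L ≃ₐ[F] L} (hσ : ∀ g, g ∈ Subgroup.zpowers σ)
    (hπ : (Ideal.span {π}).IsMaximal) (hπfix : ∀ g : L ≃ₐ[F] L, g • Ideal.span {π} = Ideal.span {π})
    (hunr : ∀ P : Ideal (𝓞 L), P.IsPrime → P ≠ ⊥ → π ∉ P → P.ramificationIdx (𝓞 F) = 1)
    (hμ : ∀ η ∈ Units.torsion F, ∃ ξ : (𝓞 L)ˣ, normU F ξ = η) {d : ℕ} (hd : Odd d) (hdeg : Module.finrank F L = d)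
    {x : ClassGroup (𝓞 L)} (hminus : conjClass L x = x⁻¹) (hfix : actCl σ x = x) :
    x ^ 2 * (x ^ d)⁻¹ ∈ (ClassGroup.extendedHom (𝓞 F) (𝓞 L)).range := by
  obtain ⟨I, rfl⟩ := ClassGroup.mk0_surjective x
  set cL := RingOfIntegers.mapRingEquiv (complexConj L).toRingEquiv
  set A : Ideal (𝓞 L) := (I : Ideal (𝓞 L))
  set B : Ideal (𝓞 L) := (conjIdeal L I : Ideal (𝓞 L))
  have hA0 : A ≠ ⊥ := mem_nonZeroDivisors_iff_ne_zero.mp I.2
  have hB0 : B ≠ ⊥ := mem_nonZeroDivisors_iff_ne_zero.mp (conjIdeal L I).2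
  have hB : B = A.map (cL : 𝓞 L →+* 𝓞 L) := rfl
  have hcomm : ∀ t : 𝓞 L, σ • cL t = cL (σ • t) := fun t => RingOfIntegers.ext (complexConj_comm σ (t : L)).symm
  have hsmul0 : ∀ (g : L ≃ₐ[F] L) (J : Ideal (𝓞 L)), J ≠ ⊥ → g • J ≠ ⊥ := fun g J hJ h => hJ <| by
    rw [← inv_smul_smul g J, h, Ideal.smul_bot]
  have hσI : σ • A ∈ (Ideal (𝓞 L))⁰ := mem_nonZeroDivisors_iff_ne_zero.mpr (hsmul0 σ A hA0)
  rw [actCl_mk0 σ I ⟨σ • A, hσI⟩ rfl] at hfix
  obtain ⟨a, b, ha, hb, hab⟩ := ClassGroup.mk0_eq_mk0_iff.mp hfix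
  change Ideal.span {a} * σ • A = Ideal.span {b} * A at hab
  -- the unit
  have hN := congrArg (Ideal.relNorm (𝓞 F)) hab
  rw [map_mul, map_mul, Ideal.relNorm_smul, Ideal.relNorm_singleton, Ideal.relNorm_singleton] at hN
  have hN' := mul_right_cancel₀ (fun e => hA0 (Ideal.relNorm_eq_bot_iff.mp e)) hN
  obtain ⟨ε, hε⟩ := Ideal.span_singleton_eq_span_singleton.mp hN'
  rw [intNorm_eq_norm, intNorm_eq_norm] at hε
  -- conjugate and combine
  have haL : (a : L) ≠ 0 := RingOfIntegers.coe_ne_zero_iff.mpr ha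
  have hbL : (b : L) ≠ 0 := RingOfIntegers.coe_ne_zero_iff.mpr hb
  have hca : ∀ {t : 𝓞 L}, t ≠ 0 → ((cL t : 𝓞 L) : L) ≠ 0 := fun ht =>
    RingOfIntegers.coe_ne_zero_iff.mpr ((map_ne_zero_iff cL cL.injective).mpr ht)
  have hnc : ∀ t : L, Algebra.norm F (complexConj L t) = complexConj F (Algebra.norm F t) := fun t => by
    refine (algebraMap F L).injective ?_
    rw [← complexConj_algebraMap, Algebra.norm_eq_prod_automorphisms, Algebra.norm_eq_prod_automorphisms, map_prod]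
    exact Finset.prod_congr rfl fun g _ => (complexConj_comm g t).symm
  set η : (𝓞 F)ˣ := ε * (unitsComplexConj F ε)⁻¹
  obtain ⟨ξ, hξ⟩ := hμ η (unitsMulComplexConjInv F ε).2
  set r : L := (b : L) * (cL a : L) / ((a : L) * (cL b : L) * ((ξ : 𝓞 L) : L)) with hr
  have hr1 : Algebra.norm F r = 1 := by
    have e1 : Algebra.norm F (a : L) * ((ε : 𝓞 F) : F) = Algebra.norm F (b : L) :=
      (congrArg (fun t : 𝓞 F => (t : F)) hε : _)
    have e2 : complexConj F (Algebra.norm F (a : L)) * complexConj F ((ε : 𝓞 F) : F) =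
        complexConj F (Algebra.norm F (b : L)) := by rw [← map_mul, e1]
    have e3 : ((η : 𝓞 F) : F) * complexConj F ((ε : 𝓞 F) : F) = ((ε : 𝓞 F) : F) := by
      have h : η * unitsComplexConj F ε = ε := inv_mul_cancel_right ε _
      exact congrArg (fun t : (𝓞 F)ˣ => ((t : 𝓞 F) : F)) h
    have e4 : Algebra.norm F ((ξ : 𝓞 L) : L) = ((η : 𝓞 F) : F) :=
      congrArg (fun t : (𝓞 F)ˣ => ((t : 𝓞 F) : F)) hξ
    have hca' : ((cL a : 𝓞 L) : L) = complexConj L (a : L) := rfl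
    have hcb' : ((cL b : 𝓞 L) : L) = complexConj L (b : L) := rfl
    have hD : (a : L) * (cL b : L) * ((ξ : 𝓞 L) : L) ≠ 0 :=
      mul_ne_zero (mul_ne_zero haL (hca hb)) (RingOfIntegers.coe_ne_zero_iff.mpr ξ.ne_zero)
    refine mul_right_cancel₀ (Algebra.norm_ne_zero_iff.mpr hD : Algebra.norm F _ ≠ 0) ?_
    rw [← map_mul, hr, div_mul_cancel₀ _ hD, one_mul, map_mul, map_mul, map_mul, hca', hcb', hnc, hnc, e4, ← e1,
      map_mul]
    linear_combination -(Algebra.norm F (a : L) * complexConj F (Algebra.norm F (a : L))) * e3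
  obtain ⟨β, hβ, hβr⟩ := exists_integral_hilbert90 hσ hr1
  have hβ' : b * cL a * (σ • β) = a * cL b * (ξ : 𝓞 L) * β := by
    refine RingOfIntegers.coe_injective ?_
    simp only [map_mul, coe_smul_int]
    have hd0 : (a : L) * (cL b : L) * ((ξ : 𝓞 L) : L) ≠ 0 :=
      mul_ne_zero (mul_ne_zero haL (hca hb)) (RingOfIntegers.coe_ne_zero_iff.mpr ξ.ne_zero)
    rw [hr, div_mul_eq_mul_div, div_eq_iff hd0] at hβr
    linear_combination hβr
  have hcab : Ideal.span {cL a} * σ • B = Ideal.span {cL b} * B := by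
    have h := congrArg (Ideal.map (cL : 𝓞 L →+* 𝓞 L)) hab
    simp only [Ideal.map_mul, Ideal.map_span, Set.image_singleton, RingHom.coe_coe] at h
    have e : (σ • A).map (cL : 𝓞 L →+* 𝓞 L) = σ • B := by
      rw [hB, Ideal.pointwise_smul_def, Ideal.pointwise_smul_def, Ideal.map_map, Ideal.map_map]
      congr 1
      exact RingHom.ext fun t => (hcomm t).symm
    rwa [e] at h
  -- the fixed ideal
  set P : Ideal (𝓞 L) := ∏ g ∈ (Finset.univ : Finset (L ≃ₐ[F] L)).erase 1, g • B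
  set M := A * Ideal.span {β} * P
  have hP0 : P ≠ ⊥ := Finset.prod_ne_zero_iff.mpr fun g _ => hsmul0 g B hB0
  have hM0 : M ≠ ⊥ := mul_ne_zero (mul_ne_zero hA0 fun e => hβ (Ideal.span_singleton_eq_bot.mp e)) hP0
  have hMσ : σ • M = M := by
    refine mul_left_cancel₀ (a := Ideal.span {a} * Ideal.span {cL b} * B) ?_ ?_
    · refine mul_ne_zero (mul_ne_zero ?_ ?_) hB0 <;> intro e <;>
        rw [Ideal.zero_eq_bot, Ideal.span_singleton_eq_bot] at e
      exacts [ha e, (map_ne_zero_iff cL cL.injective).mpr hb e]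
    calc Ideal.span {a} * Ideal.span {cL b} * B * σ • M
        = (Ideal.span {a} * σ • A) * (Ideal.span {cL b} * B) * Ideal.span {σ • β} * σ • P := by
          rw [smul_mul', smul_mul', smul_span]; ring
      _ = (Ideal.span {b} * A) * (Ideal.span {cL a} * σ • B) * Ideal.span {σ • β} * σ • P := by rw [hab, hcab]
      _ = Ideal.span {b * cL a * (σ • β)} * A * ((σ • P) * σ • B) := by
          rw [← Ideal.span_singleton_mul_span_singleton, ← Ideal.span_singleton_mul_span_singleton]; ring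
      _ = Ideal.span {a * cL b * β} * A * (P * B) := by
          rw [hβ', smul_prod_erase, show a * cL b * (ξ : 𝓞 L) * β = a * cL b * β * ξ by ring,
            Ideal.span_singleton_mul_right_unit ξ.isUnit]
      _ = Ideal.span {a} * Ideal.span {cL b} * B * M := by
          rw [← Ideal.span_singleton_mul_span_singleton, ← Ideal.span_singleton_mul_span_singleton]; ring
  obtain ⟨k, J, hJ⟩ := exists_decomp hπ hπfix hunr M hM0 (smul_fixed_of_generator hσ hMσ)
  have hJ0 : J ≠ ⊥ := fun e => hM0 (by rw [hJ, e, Ideal.map_bot, Ideal.mul_bot])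
  have hπk : Ideal.span {π} ^ k ≠ ⊥ := fun e => hM0 (by rw [hJ, e, Ideal.bot_mul])
  let J₀ : (Ideal (𝓞 F))⁰ := ⟨J, mem_nonZeroDivisors_iff_ne_zero.mpr hJ0⟩
  have hM : ClassGroup.mk0 ⟨M, mem_nonZeroDivisors_iff_ne_zero.mpr hM0⟩ =
      ClassGroup.extendedHom (𝓞 F) (𝓞 L) (ClassGroup.mk0 J₀) := by
    rw [ClassGroup.extendedHom_mk0, ← one_mul (ClassGroup.mk0 (ClassGroup.extendedIdeal (𝓞 F) (𝓞 L) J₀)),
      ← mk0_eq_one_of_eq_span ⟨_, mem_nonZeroDivisors_iff_ne_zero.mpr hπk⟩ (π ^ k) (Ideal.span_singleton_pow π k),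
      ← map_mul]
    exact congrArg ClassGroup.mk0 (Subtype.ext hJ)
  -- the class of `M`
  have hclass : ClassGroup.mk0 ⟨M, mem_nonZeroDivisors_iff_ne_zero.mpr hM0⟩ =
      ClassGroup.mk0 I * ((ClassGroup.mk0 I)⁻¹) ^ (d - 1) := by
    have hg : ∀ g : L ≃ₐ[F] L, actCl g (ClassGroup.mk0 (conjIdeal L I)) = (ClassGroup.mk0 I)⁻¹ := fun g => by
      rw [← conjClass_mk0, hminus, map_inv]
      congr 1
      obtain ⟨i, rfl⟩ := mem_powers_iff_mem_zpowers.mpr (hσ g)
      show actCl (σ ^ i) (ClassGroup.mk0 I) = _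
      induction i with
      | zero => rw [pow_zero, map_one]; rfl
      | succ i ih =>
        have h1 : actCl σ (ClassGroup.mk0 I) = ClassGroup.mk0 I := by rw [actCl_mk0 σ I ⟨σ • A, hσI⟩ rfl, hfix]
        rw [pow_succ, map_mul, MulAut.mul_apply, h1, ih]
    have hP : (⟨M, mem_nonZeroDivisors_iff_ne_zero.mpr hM0⟩ : (Ideal (𝓞 L))⁰) = I *
        ⟨Ideal.span {β}, mem_nonZeroDivisors_iff_ne_zero.mpr fun e => hβ (Ideal.span_singleton_eq_bot.mp e)⟩ *
        ∏ g ∈ (Finset.univ : Finset (L ≃ₐ[F] L)).erase 1,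
          ⟨g • B, mem_nonZeroDivisors_iff_ne_zero.mpr (hsmul0 g B hB0)⟩ :=
      Subtype.ext (by rw [Submonoid.coe_mul, Submonoid.coe_mul, Submonoid.coe_finsetProd])
    rw [hP, map_mul, map_mul, map_prod, mk0_eq_one_of_eq_span ⟨Ideal.span {β}, _⟩ β rfl, mul_one,
      Finset.prod_congr rfl fun g _ => ((actCl_mk0 g (conjIdeal L I) ⟨g • B, _⟩ rfl).symm.trans (hg g)),
      Finset.prod_const, Finset.card_erase_of_mem (Finset.mem_univ _), Finset.card_univ, ← Nat.card_eq_fintype_card,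
      IsGalois.card_aut_eq_finrank, hdeg]
  obtain ⟨e, rfl⟩ := hd
  refine ⟨ClassGroup.mk0 J₀, ?_⟩
  rw [← hM, hclass, inv_pow, eq_mul_inv_iff_mul_eq, Nat.add_sub_cancel, pow_succ, pow_two, mul_assoc,
    inv_mul_cancel_left]

/-- **A fixed minus class of odd order is extended.** -/
theorem mem_range_of_fixed {σ : L ≃ₐ[F] L} (hσ : ∀ g, g ∈ Subgroup.zpowers σ)
    (hπ : (Ideal.span {π}).IsMaximal) (hπfix : ∀ g : L ≃ₐ[F] L, g • Ideal.span {π} = Ideal.span {π})
    (hunr : ∀ P : Ideal (𝓞 L), P.IsPrime → P ≠ ⊥ → π ∉ P → P.ramificationIdx (𝓞 F) = 1)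
    (hμ : ∀ η ∈ Units.torsion F, ∃ ξ : (𝓞 L)ˣ, normU F ξ = η) {d : ℕ} (hd : Odd d) (hdeg : Module.finrank F L = d)
    {x : ClassGroup (𝓞 L)} (hxd : x ^ d = 1) (hminus : conjClass L x = x⁻¹) (hfix : actCl σ x = x) :
    x ∈ (ClassGroup.extendedHom (𝓞 F) (𝓞 L)).range := by
  have hsq := sq_div_pow_mem_range_of_fixed hσ hπ hπfix hunr hμ hd hdeg hminus hfix
  rw [hxd, inv_one, mul_one] at hsq
  obtain ⟨e, rfl⟩ := hd
  have h := pow_mem hsq (e + 1)
  rwa [← pow_mul, show 2 * (e + 1) = 2 * e + 1 + 1 by ring, pow_succ, hxd, one_mul] at h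

end FA.IwasawaStructure
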