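import Fermat.Agent.IwasawaStructure.Stickelberger
import Fermat.Agent.IwasawaMinus.Certificate
import Fermat.Agent.ClassField94.Capitulation

/-!
# Stickelberger's theorem and the first two coefficients of the branches

If every odd branch has a constant or a linear coefficient prime to `p` and `p ∤ h(K_n⁺)`, then `Gal(K_n/K_0)` fixes
every class of order `p` of `K_n = ℚ(ζ_(p^(n+1)))`: on those classes a generator is killed by the reductions of the
Stickelberger polynomials and by `X^(φ/2) + 1`, so by `X^p - X`.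
-/

set_option autoImplicit false
set_option linter.style.haveILetI false

noncomputable section

open NumberField NumberField.IsCMField Polynomial
open scoped Classical nonZeroDivisors

namespace FA.IwasawaStructure

open FA.IwasawaMinus (IsGen res coefE poly sys cOf oddU res_lt not_dvd_cOf sys_compatible toZMod_coeff_sys
  toZMod_eq_zero_of_dvd)
open FA.CycloTower (actCl)

variable {p : ℕ} [hp : Fact p.Prime] {g n : ℕ} {L : Type} [Field L] [NumberField L]
  [IsCyclotomicExtension {p ^ (n + 1)} ℚ L]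

omit [IsCyclotomicExtension {p ^ (n + 1)} ℚ L] in
theorem classAut_eq_actCl (σ : L ≃ₐ[ℚ] L) (x : ClassGroup (𝓞 L)) : classAut σ x = actCl σ x := by
  have e : intAut σ = MulSemiringAction.toRingEquiv (L ≃ₐ[ℚ] L) (𝓞 L) σ :=
    RingEquiv.ext fun y => RingOfIntegers.ext rfl
  rw [classAut, e]
  rfl

theorem exists_gen_aut (hg : IsGen p g) :
    ∃ γ : L ≃ₐ[ℚ] L, orderOf γ = (p - 1) * p ^ n ∧ (∀ σ, σ ∈ Subgroup.zpowers γ) ∧
      ∀ k, expo (p ^ (n + 1)) (γ ^ k) = res p g n k := by
  haveI : NeZero (p ^ (n + 1)) := ⟨pow_ne_zero _ hp.out.ne_zero⟩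
  have hord := hg.2 n
  have hu : IsUnit (g : ZMod (p ^ (n + 1))) := (orderOf_pos_iff.mp (by
    rw [hord]
    exact Nat.mul_pos (Nat.sub_pos_of_lt hp.out.one_lt) (pow_pos hp.out.pos _))).isUnit
  set e := IsCyclotomicExtension.Rat.galEquivZMod (p ^ (n + 1)) L
  have hγ : orderOf (e.symm hu.unit) = (p - 1) * p ^ n := by
    rw [e.symm.orderOf_eq, ← orderOf_units, IsUnit.unit_spec, hord]
  refine ⟨e.symm hu.unit, hγ, fun σ => ?_, fun k => ?_⟩
  · rw [show Subgroup.zpowers (e.symm hu.unit) = ⊤ from Subgroup.eq_top_of_card_eq _ (by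
      rw [Nat.card_zpowers, hγ, Nat.card_congr e.toEquiv, Nat.card_eq_fintype_card, ZMod.card_units_eq_totient,
        Nat.totient_prime_pow_succ hp.out, mul_comm])]
    trivial
  · rw [expo, res, map_pow, MulEquiv.apply_symm_apply, Units.val_pow_eq_pow_val, IsUnit.unit_spec]

/-- The classes killed by `p`. -/
abbrev pTors (p : ℕ) (L : Type) [Field L] [NumberField L] : Subgroup (ClassGroup (𝓞 L)) :=
  (powMonoidHom p : ClassGroup (𝓞 L) →* ClassGroup (𝓞 L)).ker

/-- An automorphism on `pTors`. -/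
def torsEnd (p : ℕ) (σ : L ≃ₐ[ℚ] L) : pTors p L →* pTors p L :=
  ((actCl σ).toMonoidHom.comp (pTors p L).subtype).codRestrict (pTors p L) fun x => by
    show actCl σ (x : ClassGroup (𝓞 L)) ^ p = 1
    rw [← map_pow, show (x : ClassGroup (𝓞 L)) ^ p = 1 from x.2, map_one]

/-- **Stickelberger's relation along a generator.** -/
theorem prod_pow_coefE {γ : L ≃ₐ[ℚ] L} (hγ : orderOf γ = (p - 1) * p ^ n)
    (hgen : ∀ σ, σ ∈ Subgroup.zpowers γ) (hexp : ∀ k, expo (p ^ (n + 1)) (γ ^ k) = res p g n k) (c : ℕ)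
    (C : ClassGroup (𝓞 L)) :
    ∏ k ∈ Finset.range ((p - 1) * p ^ n), (actCl (γ⁻¹ ^ k) C) ^ coefE p g c n k = 1 := by
  haveI : NeZero (p ^ (n + 1)) := ⟨pow_ne_zero _ hp.out.ne_zero⟩
  set φ := (p - 1) * p ^ n with hφ
  have hre : ∀ f : (L ≃ₐ[ℚ] L) → ClassGroup (𝓞 L),
      ∏ k ∈ Finset.range φ, f (γ ^ k) = ∏ σ : L ≃ₐ[ℚ] L, f σ := fun f => by
    refine Finset.prod_bij (fun k _ => γ ^ k) (fun k _ => Finset.mem_univ _)
      (fun a ha b hb h => pow_injOn_Iio_orderOf (by simpa [hγ] using Finset.mem_range.mp ha)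
        (by simpa [hγ] using Finset.mem_range.mp hb) h) (fun σ _ => ?_) fun k _ => rfl
    obtain ⟨i, hi⟩ := mem_powers_iff_mem_zpowers.mpr (hgen σ)
    exact ⟨i % φ, Finset.mem_range.mpr (Nat.mod_lt _ (Nat.mul_pos (Nat.sub_pos_of_lt hp.out.one_lt)
      (pow_pos hp.out.pos _))), by rw [← hγ]; exact (pow_mod_orderOf γ i).trans hi⟩
  have h1 : ∏ k ∈ Finset.range φ, actCl (γ⁻¹ ^ k) C = 1 := by
    have h := prod_classAut_eq_one (p ^ (n + 1)) C
    rw [← hre fun σ => classAut σ⁻¹ C] at h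
    simpa only [classAut_eq_actCl, inv_pow] using h
  have h2 : ∏ k ∈ Finset.range φ, actCl (γ⁻¹ ^ k) C ^ (c * res p g n k / p ^ (n + 1)) = 1 := by
    have h := stickelberger_all (m := p ^ (n + 1)) c C
    rw [← hre fun σ => classAut σ⁻¹ C ^ (c * expo (p ^ (n + 1)) σ / p ^ (n + 1))] at h
    simpa only [classAut_eq_actCl, inv_pow, hexp] using h
  have hterm : ∀ k, coefE p g c n k =
      ((c * res p g n k / p ^ (n + 1) : ℕ) : ℤ) * 2 + (1 - (c : ℤ)) := fun k => by
    rw [coefE]
    ring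
  simp only [hterm, zpow_add, zpow_mul, zpow_natCast, Finset.prod_mul_distrib, Finset.prod_zpow, h1, h2,
    one_zpow, mul_one]

/-- The linear algebra: the relations make `T^p = T`. -/
theorem end_pow_prime_eq {A : Type*} [AddCommGroup A] [Module (ZMod p) A] [Finite A] (hg : IsGen p g)
    (hc : ∀ u ∈ oddU p, (p : ℤ_[p]) ∣ (sys hg u 0).coeff 0 → ¬ (p : ℤ_[p]) ∣ (sys hg u 1).coeff 1)
    (hn : 0 < n) {d : ℕ} (hd : p - 1 = 2 * d) (T : Module.End (ZMod p) A)
    (hf : ∀ c : ℕ, aeval T ((poly p g c n).map (Int.castRingHom (ZMod p))) = 0)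
    (hconj : aeval T (X ^ (d * p ^ n) + 1 : (ZMod p)[X]) = 0) : T ^ p = T := by
  haveI : Module.Finite (ZMod p) A := Module.Finite.of_finite
  have hd0 : 0 < d := by have := hp.out.two_le; omega
  set μ := minpoly (ZMod p) T
  have hr : μ ∣ X ^ (d * p ^ n) + 1 := minpoly.dvd _ _ hconj
  have hdiv : X ^ (d * p ^ n) + 1 ∣ ((X : (ZMod p)[X]) ^ p - X) ^ p ^ n := by
    have h1 : (X : (ZMod p)[X]) ^ p - X = X * (X ^ (p - 1) - 1) := by
      rw [mul_sub, mul_one, ← pow_succ', Nat.sub_add_cancel hp.out.one_le]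
    rw [h1, mul_pow, sub_pow_char_pow, one_pow, ← pow_mul, hd, mul_assoc 2, mul_comm 2, pow_mul X (d * p ^ n)]
    exact Dvd.dvd.mul_left ⟨X ^ (d * p ^ n) - 1, by ring⟩ _
  have hq0 : (X : (ZMod p)[X]) ^ p - X ≠ 0 := FiniteField.X_pow_card_sub_X_ne_zero (ZMod p) hp.out.one_lt
  have hroots : ((X : (ZMod p)[X]) ^ p - X).roots = (Finset.univ : Finset (ZMod p)).val := by
    have h := FiniteField.roots_X_pow_card_sub_X (ZMod p)
    rwa [ZMod.card] at h
  have hqs : ((X : (ZMod p)[X]) ^ p - X).Splits := splits_iff_card_roots.mpr (by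
    rw [hroots, FiniteField.X_pow_card_sub_X_natDegree_eq (ZMod p) hp.out.one_lt]
    exact ZMod.card p)
  have hμ : μ.Splits := (hqs.pow _).of_dvd (pow_ne_zero _ hq0) (hr.trans hdiv)
  have hμ0 : μ ≠ 0 := minpoly.ne_zero (Algebra.IsIntegral.isIntegral T)
  have hnodup : μ.roots.Nodup := by
    refine Multiset.nodup_iff_count_le_one.mpr fun a => ?_
    rw [count_roots]
    by_contra! h2
    have hsq : (X - C a) ^ 2 ∣ μ := (le_rootMultiplicity_iff hμ0).mp h2
    have hroot : a ^ (d * p ^ n) = -1 := by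
      have h := dvd_iff_isRoot.mp ((dvd_pow_self _ two_ne_zero).trans (hsq.trans hr))
      simpa [IsRoot, eq_neg_iff_add_eq_zero] using h
    have hau : a ≠ 0 := fun e => by
      rw [e, zero_pow (Nat.mul_ne_zero hd0.ne' (pow_ne_zero _ hp.out.ne_zero))] at hroot
      exact neg_ne_zero.mpr one_ne_zero hroot.symm
    set u := Units.mk0 a hau
    have hodd : u ∈ oddU p := Finset.mem_filter.mpr ⟨Finset.mem_univ _, by
      rw [pow_mul, ZMod.pow_card_pow] at hroot
      rwa [Units.val_mk0, hd, Nat.mul_div_cancel_left _ two_pos]⟩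
    obtain ⟨r, hr'⟩ := hsq.trans (minpoly.dvd _ _ (hf (cOf hg u)))
    have e0 := congrArg (fun f : (ZMod p)[X] => f.eval a) hr'
    have e1 := congrArg (fun f : (ZMod p)[X] => (derivative f).eval a) hr'
    simp only [eval_mul, eval_pow, eval_sub, eval_X, eval_C, sub_self, derivative_mul, derivative_pow,
      eval_add, zero_pow two_ne_zero, zero_mul, Nat.cast_ofNat, Nat.add_one_sub_one, pow_one, mul_zero, zero_mul,
      add_zero] at e0 e1
    have hmap : (poly p g (cOf hg u) n).map (Int.castRingHom (ZMod p)) = ∑ k ∈ Finset.range ((p - 1) * p ^ n),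
        C ((coefE p g (cOf hg u) n k : ℤ) : ZMod p) * X ^ k := by
      simp only [poly, Polynomial.map_sum, Polynomial.map_mul, Polynomial.map_pow, map_X, map_C, Int.coe_castRingHom]
    rw [hmap] at e0 e1
    simp only [eval_finsetSum, eval_mul, eval_pow, eval_X, eval_C, derivative_sum, derivative_C_mul_X_pow] at e0 e1
    have c0 : (p : ℤ_[p]) ∣ (sys hg u n).coeff 0 := by
      rw [← Ideal.mem_span_singleton, ← PadicInt.maximalIdeal_eq_span_p, ← PadicInt.ker_toZMod, RingHom.mem_ker,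
        toZMod_coeff_sys]
      simpa [u] using e0
    have c1 : (p : ℤ_[p]) ∣ (sys hg u n).coeff 1 := by
      rw [← Ideal.mem_span_singleton, ← PadicInt.maximalIdeal_eq_span_p, ← PadicInt.ker_toZMod, RingHom.mem_ker,
        toZMod_coeff_sys]
      have := congrArg (· * a) e1
      simp only [Finset.sum_mul, zero_mul] at this
      rw [← this]
      refine Finset.sum_congr rfl fun i _ => ?_
      rcases i with _ | i
      · simp
      · simp only [Nat.choose_one_right, u, Units.val_mk0, Nat.add_one_sub_one]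
        ring
    refine hc u hodd ?_ ?_
    · simpa using ((sys_compatible hg u).dvd_coeff_iff (Nat.zero_le n) (show 0 + 1 ≤ 0 + 1 - 0 by omega)).mp
        (by rwa [zero_add, pow_one])
    · simpa using ((sys_compatible hg u).dvd_coeff_iff (show 1 ≤ n by omega) (show 0 + 1 ≤ 1 + 1 - 1 by omega)).mp
        (by rwa [zero_add, pow_one])
  have hdvd : μ ∣ X ^ p - X := hμ.dvd_of_roots_le_roots hμ0 (by
    rw [hroots]
    exact (Multiset.le_iff_subset hnodup).mpr fun a _ => Finset.mem_univ a)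
  obtain ⟨r, hr'⟩ := hdvd
  have h : aeval T ((X : (ZMod p)[X]) ^ p - X) = 0 := by rw [hr', map_mul, minpoly.aeval, zero_mul]
  simpa [sub_eq_zero] using h

/-- The same for an additive endomorphism. -/
theorem iterate_prime_eq {A : Type*} [AddCommGroup A] [Finite A] (hg : IsGen p g)
    (hc : ∀ u ∈ oddU p, (p : ℤ_[p]) ∣ (sys hg u 0).coeff 0 → ¬ (p : ℤ_[p]) ∣ (sys hg u 1).coeff 1)
    (hn : 0 < n) {d : ℕ} (hd : p - 1 = 2 * d) (hpA : ∀ v : A, p • v = 0) (T : A →+ A)
    (hf : ∀ (c : ℕ) (v : A), ∑ k ∈ Finset.range ((p - 1) * p ^ n), coefE p g c n k • T^[k] v = 0)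
    (hconj : ∀ v : A, T^[d * p ^ n] v + v = 0) (v : A) : T^[p] v = T v := by
  have key : ∀ [Module (ZMod p) A], T^[p] v = T v := by
    intro inst
    let S : Module.End (ZMod p) A := T.toZModLinearMap p
    have hS : ∀ (i : ℕ) (w : A), (S ^ i) w = T^[i] w := fun i w => by rw [Module.End.pow_apply]; rfl
    have h := LinearMap.congr_fun (end_pow_prime_eq hg hc hn hd S (fun c => LinearMap.ext fun w => ?_)
      (LinearMap.ext fun w => ?_)) v
    · rwa [hS] at h
    · rw [LinearMap.zero_apply, ← hf c w, poly, Polynomial.map_sum, map_sum, LinearMap.sum_apply]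
      refine Finset.sum_congr rfl fun k _ => ?_
      rw [Polynomial.map_mul, Polynomial.map_pow, map_X, map_C, map_mul, map_pow, aeval_X, aeval_C,
        Module.End.mul_apply, Module.algebraMap_end_apply, eq_intCast, Int.cast_smul_eq_zsmul, hS]
    · rw [map_add, map_pow, aeval_X, map_one, LinearMap.add_apply, Module.End.one_apply, hS, LinearMap.zero_apply]
      exact hconj w
  exact @key (AddCommGroup.zmodModule hpA)

/-- Conjugation inverts a class of order `p` if `p ∤ h(L⁺)`. -/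
theorem conjClass_eq_inv {p : ℕ} (hp : p.Prime) {L : Type} [Field L] [NumberField L] [IsCMField L]
    (hplus : ¬ p ∣ classNumber (maximalRealSubfield L)) {y : ClassGroup (𝓞 L)} (hy : y ^ p = 1) :
    FA.ClassField94.conjClass L y = y⁻¹ := by
  obtain ⟨D, hD⟩ := FA.ClassField94.mul_conjClass_mem_range L y
  refine eq_inv_of_mul_eq_one_right ((pow_eq_one_iff_of_coprime (Nat.Coprime.symm
    (hp.coprime_iff_not_dvd.mpr hplus))).mp ⟨?_, ?_⟩)
  · rw [← hD, classNumber, ← map_pow, pow_card_eq_one, map_one]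
  · rw [mul_pow, hy, one_mul, ← map_pow, hy, map_one]

omit [IsCyclotomicExtension {p ^ (n + 1)} ℚ L] in
/-- Complex conjugation is the power `φ/2` of a generator. -/
theorem conj_eq_gen_pow [IsCMField L] {γ : L ≃ₐ[ℚ] L} (hγ : orderOf γ = (p - 1) * p ^ n)
    (hgen : ∀ σ, σ ∈ Subgroup.zpowers γ) {d : ℕ} (hd : p - 1 = 2 * d) :
    (complexConj L).restrictScalars ℚ = γ ^ (d * p ^ n) := by
  have hd0 : 0 < d := by have := hp.out.two_le; omega
  let cσ : L ≃ₐ[ℚ] L := (complexConj L).restrictScalars ℚ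
  show cσ = γ ^ (d * p ^ n)
  obtain ⟨i, hi⟩ := mem_powers_iff_mem_zpowers.mpr (hgen cσ)
  set φ := orderOf γ with hφ
  have hi' : γ ^ (i % φ) = cσ := (pow_mod_orderOf γ i).trans hi
  have hlt : i % φ < φ := Nat.mod_lt _ (by
    rw [hγ]
    exact Nat.mul_pos (Nat.sub_pos_of_lt hp.out.one_lt) (pow_pos hp.out.pos _))
  have h2 : φ ∣ i % φ * 2 := by
    refine orderOf_dvd_of_pow_eq_one ?_
    rw [pow_mul, hi', pow_two]
    exact AlgEquiv.ext fun y => complexConj_apply_apply L y
  have h0 : i % φ ≠ 0 := fun e => complexConj_ne_one L (AlgEquiv.ext fun y =>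
    DFunLike.congr_fun (show cσ = 1 by rw [← hi', e, pow_zero]) y)
  have hφd : φ = d * p ^ n * 2 := by rw [hγ, hd]; ring
  obtain ⟨t, ht⟩ := h2
  have : t = 1 := by
    rcases t with _ | _ | t
    · omega
    · rfl
    · nlinarith
  rw [← hi', show i % φ = d * p ^ n by rw [this] at ht; omega]

/-- Complex conjugation inverts every class of `p`-power order if `p ∤ h(L⁺)`. -/
theorem conj_acts_inv {p : ℕ} (hp : p.Prime) {L : Type} [Field L] [NumberField L] [IsCMField L]
    (hplus : ¬ p ∣ classNumber (maximalRealSubfield L)) {y : ClassGroup (𝓞 L)} {i : ℕ} (hy : y ^ p ^ i = 1) :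
    actCl ((complexConj L).restrictScalars ℚ) y = y⁻¹ := by
  have e : actCl ((complexConj L).restrictScalars ℚ) y = FA.ClassField94.conjClass L y := by
    rw [← classAut_eq_actCl, classAut, FA.ClassField94.conjClass]
    congr 2
  obtain ⟨D, hD⟩ := FA.ClassField94.mul_conjClass_mem_range L y
  rw [e]
  refine eq_inv_of_mul_eq_one_right ((pow_eq_one_iff_of_coprime
    (Nat.Coprime.pow_left i (hp.coprime_iff_not_dvd.mpr hplus))).mp ⟨?_, ?_⟩)
  · rw [mul_pow, hy, one_mul, ← map_pow, hy, map_one]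
  · rw [← hD, classNumber, ← map_pow, pow_card_eq_one, map_one]

/-- **`Gal(K_n/K_0)` fixes the classes of order `p`.** -/
theorem fixed_of_order_p (hp2 : p ≠ 2) (hg : IsGen p g)
    (hc : ∀ u ∈ oddU p, (p : ℤ_[p]) ∣ (sys hg u 0).coeff 0 → ¬ (p : ℤ_[p]) ∣ (sys hg u 1).coeff 1)
    [IsCMField L] (hplus : ¬ p ∣ classNumber (maximalRealSubfield L)) {σ : L ≃ₐ[ℚ] L} (hσ : σ ^ p ^ n = 1)
    {x : ClassGroup (𝓞 L)} (hx : x ^ p = 1) : actCl σ x = x := by
  haveI : NeZero (p ^ (n + 1)) := ⟨pow_ne_zero _ hp.out.ne_zero⟩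
  obtain ⟨γ, hγ, hgen, hexp⟩ := exists_gen_aut (L := L) (n := n) hg
  obtain ⟨k, rfl⟩ := mem_powers_iff_mem_zpowers.mpr (hgen σ)
  rw [← pow_mul, ← orderOf_dvd_iff_pow_eq_one, hγ, mul_dvd_mul_iff_right (pow_ne_zero _ hp.out.ne_zero)] at hσ
  suffices hfix : actCl (γ ^ (p - 1)) x = x by
    obtain ⟨j, rfl⟩ := hσ
    show actCl (γ ^ ((p - 1) * j)) x = x
    rw [pow_mul]
    induction j with
    | zero => simp
    | succ j ih => rw [pow_succ, map_mul, MulAut.mul_apply, hfix, ih]
  rcases Nat.eq_zero_or_pos n with rfl | hn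
  · rw [show γ ^ (p - 1) = 1 from orderOf_dvd_iff_pow_eq_one.mp (by rw [hγ, pow_zero, mul_one]), map_one]
    rfl
  -- complex conjugation
  obtain ⟨d, hd⟩ : 2 ∣ p - 1 := ((hp.out.odd_of_ne_two hp2).tsub_odd odd_one).two_dvd
  have hcσ := conj_eq_gen_pow (n := n) hγ hgen hd
  have hconj : ∀ y : ClassGroup (𝓞 L), y ^ p = 1 → actCl ((complexConj L).restrictScalars ℚ) y = y⁻¹ :=
    fun y hy => conj_acts_inv hp.out hplus (i := 1) (by rwa [pow_one])
  -- the classes of order `p`
  let T : Additive (pTors p L) →+ Additive (pTors p L) := (torsEnd p γ⁻¹).toAdditive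
  have hT : ∀ (i : ℕ) (v : Additive (pTors p L)),
      ((T^[i] v).toMul : ClassGroup (𝓞 L)) = actCl (γ⁻¹ ^ i) (v.toMul : ClassGroup (𝓞 L)) := fun i => by
    induction i with
    | zero => intro v; rw [pow_zero, map_one]; rfl
    | succ i ih =>
      intro v
      rw [Function.iterate_succ_apply', pow_succ' γ⁻¹, map_mul, MulAut.mul_apply, ← ih v]
      rfl
  haveI : Finite (Additive (pTors p L)) := inferInstanceAs (Finite (pTors p L))
  have key := iterate_prime_eq hg hc hn hd
    (fun v : Additive (pTors p L) => Additive.toMul.injective (Subtype.ext v.toMul.2)) T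
    (fun c v => Additive.toMul.injective (Subtype.ext (by
      simp only [toMul_sum, SubmonoidClass.coe_finsetProd, toMul_zsmul, SubgroupClass.coe_zpow, hT, toMul_zero,
        Subgroup.coe_one]
      exact prod_pow_coefE hγ hgen hexp c _)))
    (fun v => Additive.toMul.injective (Subtype.ext (by
      have hcinv : ((complexConj L).restrictScalars ℚ : L ≃ₐ[ℚ] L)⁻¹ = (complexConj L).restrictScalars ℚ :=
        inv_eq_of_mul_eq_one_right (AlgEquiv.ext fun y => complexConj_apply_apply L y)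
      rw [toMul_add, toMul_zero, Subgroup.coe_mul, Subgroup.coe_one, hT, inv_pow, ← hcσ, hcinv,
        hconj _ v.toMul.2, inv_mul_cancel])))
    (Additive.ofMul ⟨x, hx⟩)
  have h1 := hT p (Additive.ofMul ⟨x, hx⟩)
  rw [key, show T = (torsEnd p γ⁻¹).toAdditive from rfl] at h1
  have h2 : actCl γ⁻¹ x = actCl (γ⁻¹ ^ p) x := h1
  have h3 := congrArg (actCl (γ ^ p)) h2
  simp only [← MulAut.mul_apply, ← map_mul, inv_pow, mul_inv_cancel, map_one, MulAut.one_apply] at h3
  rw [← mul_inv_cancel_right (γ ^ (p - 1)) γ, ← pow_succ, Nat.sub_add_cancel hp.out.one_le]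
  exact h3

end FA.IwasawaStructure
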