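import Fermat.Agent.IwasawaStructure.ZetaZero
import Fermat.Agent.IwasawaStructure.Semisimple

/-!
# The Galois character of a cyclic `p`-class group

If the `p`-class group of `ℚ(ζ_(p^(n+1)))` is generated by a class `x` of order `p^(n+1)`, Stickelberger's theorem says
that the exponent by which a generator of the Galois group acts on `x` is a zero modulo `p^(n+1)` of the
Stickelberger polynomials; Voronoi's congruence turns this into the zero of the `p`-adic zeta function.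
-/

set_option autoImplicit false
set_option linter.style.haveILetI false

noncomputable section

open NumberField NumberField.IsCMField Polynomial
open scoped Classical

namespace FA.IwasawaStructure

open FA.IwasawaMinus (IsGen res coefE poly sys cOf oddU teich toZMod_teich sys_compatible genUnit genUnit_val
  exists_pow_genUnit orderOf_gen_mod minusExp)
open FA.OrderTheta (zetaValue exponent_facts)
open FA.CycloTower (actCl)

variable {p : ℕ} [hp : Fact p.Prime] {g : ℕ}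

/-- With exponent `1` at level one, a single branch is divisible by `p`. -/
theorem branch_unique (hp2 : p ≠ 2) (hg : IsGen p g) (K : Type*) [Field K] [NumberField K]
    [IsCyclotomicExtension {p ^ (0 + 1)} ℚ K] (h1 : minusExp p K = 1) {u w : (ZMod p)ˣ} (hu : u ∈ oddU p)
    (hw : w ∈ oddU p) (du : (p : ℤ_[p]) ∣ (sys hg u 0).coeff 0) (dw : (p : ℤ_[p]) ∣ (sys hg w 0).coeff 0) :
    u = w := by
  by_contra hne
  set f : (ZMod p)ˣ → ℝ := fun v => ‖(sys hg v 0).coeff 0‖ with hf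
  have hprod : ∏ v ∈ oddU p, f v = (p : ℝ)⁻¹ := by
    rw [hf, ← FA.IwasawaMinus.ratio_zero_eq hp2 hg, ← FA.IwasawaMinus.zpow_minusExp hp2 hg 0 K, h1, zpow_one]
  have hle : ∀ {v : (ZMod p)ˣ}, (p : ℤ_[p]) ∣ (sys hg v 0).coeff 0 → f v ≤ (p : ℝ)⁻¹ := fun {v} hd => by
    have := (PadicInt.norm_le_pow_iff_mem_span_pow ((sys hg v 0).coeff 0) 1).mpr
      (Ideal.mem_span_singleton.mpr (by rwa [pow_one]))
    simpa [hf, zpow_neg] using this
  have hrest : ∏ v ∈ ((oddU p).erase u).erase w, f v ≤ 1 :=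
    Finset.prod_le_one (fun _ _ => norm_nonneg _) fun v _ => PadicInt.norm_le_one _
  rw [← Finset.mul_prod_erase _ f hu, ← Finset.mul_prod_erase _ f (Finset.mem_erase.mpr ⟨Ne.symm hne, hw⟩)] at hprod
  have h0 := FA.IwasawaMinus.inv_p_pos (p := p)
  have h2 : f u * (f w * ∏ v ∈ ((oddU p).erase u).erase w, f v) ≤ (p : ℝ)⁻¹ * ((p : ℝ)⁻¹ * 1) :=
    mul_le_mul (hle du) (mul_le_mul (hle dw) hrest (Finset.prod_nonneg fun _ _ => norm_nonneg _) h0.le)
      (mul_nonneg (norm_nonneg _) (Finset.prod_nonneg fun _ _ => norm_nonneg _)) h0.le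
  rw [hprod, mul_one] at h2
  exact absurd h2 (not_le.mpr (mul_lt_of_lt_one_right h0 FA.IwasawaMinus.inv_p_lt_one))

variable {n : ℕ} {L : Type} [Field L] [NumberField L] [IsCyclotomicExtension {p ^ (n + 1)} ℚ L]

omit [IsCyclotomicExtension {p ^ (n + 1)} ℚ L] in
theorem actCl_pow_eq {τ : L ≃ₐ[ℚ] L} {x : ClassGroup (𝓞 L)} {e : ℕ} (he : actCl τ x = x ^ e) (i : ℕ) :
    actCl (τ ^ i) x = x ^ e ^ i := by
  induction i with
  | zero => rw [pow_zero, pow_zero, pow_one, map_one]; rfl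
  | succ i ih => rw [pow_succ τ, map_mul, MulAut.mul_apply, he, map_pow, ih, ← pow_mul, pow_succ]

/-- **Stickelberger on a cyclic class.** -/
theorem dvd_eval_stick {γ : L ≃ₐ[ℚ] L} (hγ : orderOf γ = (p - 1) * p ^ n) (hgen : ∀ σ, σ ∈ Subgroup.zpowers γ)
    (hexp : ∀ k, expo (p ^ (n + 1)) (γ ^ k) = res p g n k) {x : ClassGroup (𝓞 L)} (hord : orderOf x = p ^ (n + 1))
    {e : ℕ} (he : actCl γ⁻¹ x = x ^ e) (c : ℕ) :
    (p : ℤ_[p]) ^ (n + 1) ∣ ((poly p g c n).map (Int.castRingHom ℤ_[p])).eval (e : ℤ_[p]) := by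
  have h := prod_pow_coefE hγ hgen hexp c x
  rw [Finset.prod_congr rfl fun i _ => by rw [actCl_pow_eq he i, ← zpow_natCast x, ← zpow_mul]] at h
  have hsum : ∀ (s : Finset ℕ) (f : ℕ → ℤ), ∏ i ∈ s, x ^ f i = x ^ ∑ i ∈ s, f i := fun s f => by
    induction s using Finset.induction_on with
    | empty => simp
    | insert a s ha ih => rw [Finset.prod_insert ha, Finset.sum_insert ha, ih, zpow_add]
  rw [hsum, ← orderOf_dvd_iff_zpow_eq_one, hord] at h
  have h' := (PadicInt.pow_p_dvd_int_iff (n + 1) _).mpr (by exact_mod_cast h)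
  simp only [poly, Polynomial.map_sum, eval_finsetSum, Polynomial.map_mul, Polynomial.map_pow, map_X, map_C,
    eval_mul, eval_C, eval_pow, eval_X, Int.coe_castRingHom]
  push_cast at h'
  refine h'.trans (dvd_of_eq (Finset.sum_congr rfl fun i _ => ?_))
  ring

variable (hp5 : 5 ≤ p) (hg : IsGen p g)
  (hc : ∀ u ∈ oddU p, (p : ℤ_[p]) ∣ (sys hg u 0).coeff 0 → ¬ (p : ℤ_[p]) ∣ (sys hg u 1).coeff 1)
  (K₀ : Type) [Field K₀] [NumberField K₀] [IsCyclotomicExtension {p ^ (0 + 1)} ℚ K₀]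
  {k : ℕ} (hk : 2 ≤ k) (hkp : k ≤ p - 3) (hev : Even k) (hB : (p : ℤ) ∣ (_root_.bernoulli k).num)

include hp5 hg hc hk hkp hev hB in
/-- **The Galois character.** -/
theorem galois_character (h1 : minusExp p K₀ = 1) [IsCMField L] (hplus : ¬ p ∣ classNumber (maximalRealSubfield L))
    {x : ClassGroup (𝓞 L)} (hord : orderOf x = p ^ (n + 1))
    (hgenx : ∀ (y : ClassGroup (𝓞 L)) (j : ℕ), y ^ p ^ j = 1 → y ∈ Subgroup.zpowers x)
    {t : ℕ} (ht : (p : ℤ_[p]) ^ (n + 1) ∣ zetaValue p k t) (σ : L ≃ₐ[ℚ] L) :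
    actCl σ x = x ^ expo (p ^ (n + 1)) σ⁻¹ ^ (k + (p - 1) * t - 1) := by
  have hp2 : p ≠ 2 := by omega
  haveI : NeZero (p ^ (n + 1)) := ⟨pow_ne_zero _ hp.out.ne_zero⟩
  set R := ZMod (p ^ (n + 1))
  have hxN : x ^ p ^ (n + 1) = 1 := hord ▸ pow_orderOf_eq_one x
  have hxfin := isOfFinOrder_of_finite x
  have hmod : ∀ a b : ℕ, x ^ a = x ^ b ↔ (a : R) = b := fun a b => by
    rw [hxfin.pow_eq_pow_iff_modEq, hord, ZMod.natCast_eq_natCast_iff]
  obtain ⟨γ, hγ, hgen, hexp⟩ := exists_gen_aut (L := L) (n := n) hg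
  obtain ⟨e, he⟩ : ∃ e : ℕ, x ^ e = actCl γ⁻¹ x :=
    mem_powers_iff_mem_zpowers.mpr (hgenx _ (n + 1) (by rw [← map_pow, hxN, map_one]))
  have hpow := actCl_pow_eq he.symm
  have heφ : ((e : R)) ^ ((p - 1) * p ^ n) = 1 := by
    have h := hpow ((p - 1) * p ^ n)
    rw [inv_pow, ← hγ, pow_orderOf_eq_one, inv_one, map_one, MulAut.one_apply, hγ] at h
    have h' := (hmod 1 (e ^ ((p - 1) * p ^ n))).mp (by rw [pow_one]; exact h)
    push_cast at h'
    exact h'.symm
  have heu : IsUnit (e : R) := IsUnit.of_pow_eq_one heφ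
    (Nat.mul_ne_zero (Nat.sub_pos_of_lt hp.out.one_lt).ne' (pow_ne_zero _ hp.out.ne_zero))
  obtain ⟨j, -, hj⟩ := exists_pow_genUnit hg n heu.unit
  have hge : (g : R) ^ j = e := by
    have h := congrArg Units.val hj
    rwa [Units.val_pow_eq_pow_val, genUnit_val, IsUnit.unit_spec] at h
  obtain ⟨d, hd⟩ : 2 ∣ p - 1 := ((hp.out.odd_of_ne_two hp2).tsub_odd odd_one).two_dvd
  have hjodd : Odd j := by
    have h := conj_acts_inv hp.out hplus hxN
    rw [conj_eq_gen_pow (n := n) hγ hgen hd] at h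
    have hcc : (γ ^ (d * p ^ n))⁻¹ = γ ^ (d * p ^ n) :=
      inv_eq_of_mul_eq_one_right (by
        rw [← pow_add, ← orderOf_dvd_iff_pow_eq_one, hγ, hd]
        exact ⟨1, by ring⟩)
    rw [← hcc, ← inv_pow, hpow] at h
    have h' := (hmod (e ^ (d * p ^ n) + 1) 0).mp (by rw [pow_succ, h, inv_mul_cancel, pow_zero])
    push_cast at h'
    have hhalf := FA.IwasawaMinus.pow_half_eq_neg_one hp2 hg n
    rw [hd, mul_assoc, Nat.mul_div_cancel_left _ two_pos] at hhalf
    rw [← hge, ← pow_mul, mul_comm j, pow_mul, hhalf] at h'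
    by_contra hne
    rw [(Nat.not_odd_iff_even.mp hne).neg_one_pow] at h'
    have h2 : ((1 + 1 : ℕ) : R) = 0 := by rw [Nat.cast_add, Nat.cast_one]; exact h'
    have := Nat.le_of_dvd two_pos ((ZMod.natCast_eq_zero_iff _ _).mp h2)
    have := Nat.le_self_pow (show n + 1 ≠ 0 by omega) p
    omega
  -- the branch of the character
  set φp := ZMod.castHom (dvd_pow_self p (Nat.succ_ne_zero n)) (ZMod p)
  have hgep : (g : ZMod p) ^ j = (e : ZMod p) := by
    have h := congrArg φp hge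
    rwa [map_pow, map_natCast, map_natCast] at h
  set v : (ZMod p)ˣ := Units.mk0 ((g : ZMod p) ^ j) (pow_ne_zero _ (FA.IwasawaMinus.gen_ne_zero hg)) with hv
  have hvodd : v ∈ oddU p := by
    refine Finset.mem_filter.mpr ⟨Finset.mem_univ _, ?_⟩
    have h := FA.IwasawaMinus.pow_half_eq_neg_one hp2 hg 0
    rw [pow_zero, mul_one] at h
    rw [hv, Units.val_mk0, ← pow_mul, mul_comm, pow_mul,
      FA.IwasawaMinus.generator_pow_eq (z := -1) (h.trans (by simp)), Int.cast_neg, Int.cast_one, hjodd.neg_one_pow]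
  have hdv : (p : ℤ_[p]) ∣ (sys hg v 0).coeff 0 := by
    have h := (dvd_pow_self (p : ℤ_[p]) (Nat.succ_ne_zero n)).trans
      (dvd_eval_stick hγ hgen hexp hord he.symm (cOf hg v))
    have h4 : (p : ℤ_[p]) ∣ teich v - (e : ℤ_[p]) := by
      rw [dvd_iff_toZMod, map_sub, toZMod_teich, map_natCast, hv, Units.val_mk0, hgep, sub_self]
    have h5 : (p : ℤ_[p]) ∣ (sys hg v n).coeff 0 := by
      rw [sys, coeff_zero_eq_eval_zero, eval_comp]
      simp only [eval_mul, eval_C, eval_add, eval_one, eval_X, add_zero, mul_one]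
      exact (dvd_sub_left h).mp (h4.trans (sub_dvd_eval_sub _ _ _))
    simpa using ((sys_compatible hg v).dvd_coeff_iff (Nat.zero_le n) (show 0 + 1 ≤ 0 + 1 - 0 by omega)).mp
      (by rwa [zero_add, pow_one])
  obtain ⟨u, hu, huodd, hcu⟩ := exists_branch hp2 hg hk hkp hev
  have huv := branch_unique hp2 hg K₀ h1 hvodd huodd hdv (dvd_coeff_zero_branch hp5 hg hk hkp hev hB hu hcu)
  have hjk : j % (p - 1) = k - 1 := by
    have h : (g : ZMod p) ^ j = (g : ZMod p) ^ (k - 1) := by rw [← hu, ← huv, hv, Units.val_mk0]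
    rw [(orderOf_pos_iff.mp (by rw [orderOf_gen_mod hg]; omega)).pow_eq_pow_iff_modEq, orderOf_gen_mod hg] at h
    rw [h, Nat.mod_eq_of_lt (by omega)]
  set t' := j / (p - 1) with ht'
  have hjt : j = k + (p - 1) * t' - 1 := by
    have := Nat.mod_add_div j (p - 1)
    rw [hjk, ← ht'] at this
    omega
  -- the zero
  have ht0 : (p : ℤ_[p]) ^ (n + 1) ∣ zetaValue p k t' := by
    have h := dvd_eval_stick hγ hgen hexp hord he.symm g
    have hev' : (p : ℤ_[p]) ^ (n + 1) ∣ (stickPoly p g n).eval ((g : ℤ_[p]) ^ (k + (p - 1) * t' - 1)) := by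
      refine (dvd_sub_left h).mp (dvd_trans ?_ (sub_dvd_eval_sub _ _ _))
      rw [dvd_iff_toZModPow, map_sub, map_pow, map_natCast, map_natCast, ← hjt, sub_eq_zero]
      exact hge
    refine ((IsUnit.mul ?_ (isUnit_gen_pow_sub_one hg (exponent_facts hp5 hk hkp hev t').2.2)).dvd_mul_left).mp
      ((dvd_add_right (hev'.mul_left _)).mp (eval_stickPoly_zetaValue hp5 hg hk hkp hev t' n))
    rw [isUnit_iff_toZMod, map_ofNat]
    exact fun h => by
      have := Nat.le_of_dvd two_pos ((ZMod.natCast_eq_zero_iff 2 p).mp (by exact_mod_cast h))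
      omega
  have htt := (dvd_zetaValue_sub_iff hp5 hg hc hk hkp hev hB n t t').mp (dvd_sub ht ht0)
  have hgt : (g : R) ^ (k + (p - 1) * t - 1) = e := by
    rw [← hge, (orderOf_pos_iff.mp (by rw [hg.2 n]; exact FA.IwasawaMinus.phi_pos n)).pow_eq_pow_iff_modEq, hg.2 n,
      hjt, show k + (p - 1) * t - 1 = k - 1 + (p - 1) * t by omega,
      show k + (p - 1) * t' - 1 = k - 1 + (p - 1) * t' by omega]
    exact (htt.mul_left' _).add_left _
  obtain ⟨i, hi⟩ := mem_powers_iff_mem_zpowers.mpr (hgen σ⁻¹)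
  have hσ : σ = γ⁻¹ ^ i := by rw [inv_pow, show γ ^ i = σ⁻¹ from hi, inv_inv]
  rw [show σ⁻¹ = γ ^ i from hi.symm, hexp, hσ, hpow, hmod, Nat.cast_pow, Nat.cast_pow, res, ZMod.natCast_zmod_val,
    ← hgt, ← pow_mul, ← pow_mul, mul_comm]

end FA.IwasawaStructure
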