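import Fermat.Agent.IwasawaStructure.Semisimple
import Fermat.Agent.IwasawaStructure.FixedClass
import Fermat.Agent.CycloTower.Main

/-!
# The `p`-class groups of the cyclotomic tower

Under the hypotheses of `fixed_of_order_p` every class of order `p` at a level comes from the level below, so the
cyclicity of the `p`-class group climbs the tower.
-/

set_option autoImplicit false
set_option linter.style.haveILetI false

noncomputable section

open NumberField NumberField.IsCMField
open scoped Classical nonZeroDivisors Pointwise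

namespace FA.IwasawaStructure

open FA.IwasawaMinus (IsGen sys oddU)
open FA.CycloTower (actCl normU)

/-- The classes killed by `p` form a group of rank at most one. -/
def RankLeOne (p : ℕ) (G : Type*) [CommGroup G] : Prop :=
  ∀ a b : G, a ^ p = 1 → b ^ p = 1 → a ≠ 1 → b ∈ Subgroup.zpowers a

variable {p : ℕ} [hp : Fact p.Prime]

/-- Rank at most one gives a generator of the `p`-part. -/
theorem RankLeOne.exists_generator {G : Type*} [CommGroup G] [Finite G] (h : RankLeOne p G) :
    ∃ x : G, orderOf x = p ^ padicValNat p (Nat.card G) ∧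
      ∀ (y : G) (j : ℕ), y ^ p ^ j = 1 → y ∈ Subgroup.zpowers x := by
  set v := padicValNat p (Nat.card G)
  obtain ⟨P, hP⟩ := Sylow.exists_subgroup_card_pow_prime p (G := G) (n := v) pow_padicValNat_dvd
  haveI : Fintype P := Fintype.ofFinite _
  have hle : ∀ k, 0 < k → (Finset.univ.filter fun a : P => a ^ k = 1).card ≤ k := by
    have key : ∀ i, (Finset.univ.filter fun a : P => a ^ p ^ i = 1).card ≤ p ^ i := by
      intro i
      induction i with
      | zero => simp [Finset.filter_eq']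
      | succ i ih =>
        refine (Finset.card_le_mul_card_image (f := fun a : P => a ^ p) _ p fun b _ => ?_).trans ?_
        · rcases ((Finset.univ.filter fun a : P => a ^ p ^ (i + 1) = 1).filter fun a => a ^ p = b).eq_empty_or_nonempty
            with he | ⟨a₀, ha₀⟩
          · rw [he, Finset.card_empty]; exact Nat.zero_le _
          · by_cases htriv : ∀ c : P, c ^ p = 1 → c = 1
            · refine le_trans (Finset.card_le_one.mpr fun a ha a' ha' => ?_) hp.out.one_le
              exact div_eq_one.mp (htriv _ (by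
                rw [div_pow, (Finset.mem_filter.mp ha).2, (Finset.mem_filter.mp ha').2, div_self']))
            · push Not at htriv
              obtain ⟨c, hc, hc1⟩ := htriv
              refine (Finset.card_le_card (t := (Finset.range p).image fun j => a₀ * c ^ j) fun a ha => ?_).trans
                (Finset.card_image_le.trans (Finset.card_range p).le)
              have hd : (a * a₀⁻¹) ^ p = 1 := by
                rw [mul_pow, inv_pow, (Finset.mem_filter.mp ha).2, (Finset.mem_filter.mp ha₀).2, mul_inv_cancel]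
              obtain ⟨j, hj⟩ := mem_powers_iff_mem_zpowers.mpr (h (c : G) ((a * a₀⁻¹ : P) : G)
                (congrArg Subtype.val hc) (congrArg Subtype.val hd) fun e => hc1 (Subtype.ext e))
              refine Finset.mem_image.mpr ⟨j % p, Finset.mem_range.mpr (Nat.mod_lt _ hp.out.pos), ?_⟩
              have hj' : c ^ j = a * a₀⁻¹ := Subtype.ext (by simpa using hj)
              rw [← pow_eq_pow_mod j hc, hj', mul_comm a, mul_inv_cancel_left]
        · rw [pow_succ']
          refine Nat.mul_le_mul_left _ (le_trans (Finset.card_le_card fun b hb => ?_) ih)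
          obtain ⟨a, ha, rfl⟩ := Finset.mem_image.mp hb
          rw [Finset.mem_filter] at ha ⊢
          exact ⟨Finset.mem_univ _, by rw [← pow_mul]; exact ha.2⟩
    intro k hk
    obtain ⟨i, -, hi⟩ := (Nat.dvd_prime_pow hp.out).mp (Nat.gcd_dvd_right k (p ^ v))
    refine le_trans (Finset.card_le_card fun a ha => ?_) ((key i).trans (hi ▸ Nat.gcd_le_left _ hk))
    rw [Finset.mem_filter] at ha ⊢
    refine ⟨ha.1, ?_⟩
    rw [← hi, pow_gcd_eq_one]
    exact ⟨ha.2, by rw [← hP]; exact pow_card_eq_one'⟩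
  haveI : IsCyclic P := isCyclic_of_card_pow_eq_one_le hle
  obtain ⟨x, hx⟩ := IsCyclic.exists_ofOrder_eq_natCard (α := P)
  refine ⟨(x : G), by rw [Subgroup.orderOf_coe, hx, hP], fun y j hy => ?_⟩
  obtain ⟨e, -, he⟩ := (Nat.dvd_prime_pow hp.out).mp (orderOf_dvd_of_pow_eq_one hy)
  let S : Sylow p G := Sylow.ofCard P (by rw [hP, Nat.factorization_def _ hp.out])
  obtain ⟨Q, hQ⟩ := IsPGroup.exists_le_sylow (p := p) (P := Subgroup.zpowers y)
    (IsPGroup.of_card (n := e) (by rw [Nat.card_zpowers, he]))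
  haveI := Sylow.unique_of_normal S inferInstance
  have hQS : (Q : Subgroup G) = P := by rw [Subsingleton.elim Q S]; rfl
  have htop : Subgroup.zpowers x = ⊤ := Subgroup.eq_top_of_card_eq _ (by rw [Nat.card_zpowers, hx])
  have hy' : (⟨y, hQS ▸ hQ (Subgroup.mem_zpowers y)⟩ : P) ∈ Subgroup.zpowers x := htop ▸ Subgroup.mem_top _
  obtain ⟨i, hi⟩ := hy'
  exact ⟨i, congrArg Subtype.val hi⟩

/-- Rank at most one if the classes killed by `p` lie in a cyclic group. -/
theorem rankLeOne_of_zpowers {H : Type*} [CommGroup H] (z : H) (hfin : IsOfFinOrder z)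
    (hmem : ∀ a : H, a ^ p = 1 → a ∈ Subgroup.zpowers z) : RankLeOne p H := by
  intro a b ha hb ha1
  obtain ⟨i, hi⟩ := Subgroup.mem_zpowers_iff.mp (hmem a ha)
  obtain ⟨j, hj⟩ := Subgroup.mem_zpowers_iff.mp (hmem b hb)
  have hord : orderOf a = p := orderOf_eq_prime ha ha1
  have hsub : Subgroup.zpowers a ≤ Subgroup.zpowers z := Subgroup.zpowers_le.mpr ⟨i, hi⟩
  haveI : Finite (Subgroup.zpowers z) := hfin.finite_zpowers.to_subtype
  haveI : Fintype (Subgroup.zpowers z) := Fintype.ofFinite _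
  by_contra hnot
  -- `p + 1` solutions of `t ^ p = 1` in a cyclic group
  have hle := IsCyclic.card_pow_eq_one_le (α := Subgroup.zpowers z) hp.out.pos
  set A : Finset (Subgroup.zpowers z) := Finset.univ.filter fun t => (t : H) ∈ Subgroup.zpowers a
  have hA : A.card = p := by
    rw [← Fintype.card_subtype, ← Nat.card_eq_fintype_card]
    exact (Nat.card_congr ⟨fun t => ⟨t.1.1, t.2⟩, fun t => ⟨⟨t.1, hsub t.2⟩, t.2⟩, fun _ => rfl, fun _ => rfl⟩).trans
      ((Nat.card_zpowers a).trans hord)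
  have hins : insert ⟨b, hmem b hb⟩ A ⊆ Finset.univ.filter fun t : Subgroup.zpowers z => t ^ p = 1 :=
    fun t ht => Finset.mem_filter.mpr ⟨Finset.mem_univ _, by
      rcases Finset.mem_insert.mp ht with rfl | ht
      · exact Subtype.ext hb
      · obtain ⟨l, hl⟩ := (Finset.mem_filter.mp ht).2
        refine Subtype.ext ?_
        show (t : H) ^ p = 1
        rw [← hl, ← zpow_natCast, ← zpow_mul, mul_comm, zpow_mul, zpow_natCast, ha, one_zpow]⟩
  have h2 := (Finset.card_le_card hins).trans hle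
  have hbA : (⟨b, hmem b hb⟩ : Subgroup.zpowers z) ∉ A := fun hb' => hnot (Finset.mem_filter.mp hb').2
  rw [Finset.card_insert_of_notMem hbA, hA] at h2
  omega

/-- A cyclic `p`-part maps to rank at most one. -/
theorem rankLeOne_of_range {G H : Type*} [CommGroup G] [Finite G] [CommGroup H] (f : G →* H) (h : RankLeOne p G)
    (hr : ∀ a : H, a ^ p = 1 → a ∈ f.range) : RankLeOne p H := by
  obtain ⟨x, -, hx⟩ := h.exists_generator
  obtain ⟨k, hk, hk'⟩ : ∃ k, ¬ p ∣ k ∧ Nat.card G = p ^ padicValNat p (Nat.card G) * k := by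
    obtain ⟨k, hk⟩ := pow_padicValNat_dvd (p := p) (n := Nat.card G)
    refine ⟨k, fun ⟨t, ht⟩ => ?_, hk⟩
    have hne : Nat.card G ≠ 0 := Nat.card_pos.ne'
    refine pow_succ_padicValNat_not_dvd (p := p) hne ⟨t, ?_⟩
    rw [pow_succ, mul_assoc, ← ht]
    exact hk
  have hmem : ∀ a : H, a ^ p = 1 → a ∈ Subgroup.zpowers (f x) := fun a ha => by
    obtain ⟨C, rfl⟩ := hr a ha
    have h1 : f C ^ k ∈ Subgroup.zpowers (f x) := by
      obtain ⟨i, hi⟩ := hx (C ^ k) (padicValNat p (Nat.card G))
        (by rw [← pow_mul, mul_comm, ← hk']; exact pow_card_eq_one')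
      exact ⟨i, by rw [← map_pow, ← hi, map_zpow]⟩
    obtain ⟨u, hu⟩ := exists_pow_eq_self_of_coprime (x := f C)
      ((hp.out.coprime_iff_not_dvd.mpr hk).symm.coprime_dvd_right (orderOf_dvd_of_pow_eq_one ha))
    rw [← hu]
    exact pow_mem h1 u
  exact rankLeOne_of_zpowers (f x) (f.isOfFinOrder (isOfFinOrder_of_finite x)) hmem

variable {g : ℕ}

/-- **Classes of order `p` come from the level below.** -/
theorem orderP_mem_range (hp2 : p ≠ 2) (hg : IsGen p g)
    (hc : ∀ u ∈ oddU p, (p : ℤ_[p]) ∣ (sys hg u 0).coeff 0 → ¬ (p : ℤ_[p]) ∣ (sys hg u 1).coeff 1)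
    {n : ℕ} {F L : Type} [Field F] [NumberField F] [IsCyclotomicExtension {p ^ (n + 1)} ℚ F] [Field L] [NumberField L]
    [IsCyclotomicExtension {p ^ (n + 2)} ℚ L] [Algebra F L] [IsCMField F] [IsCMField L]
    (hplus : ¬ p ∣ classNumber (maximalRealSubfield L)) {x : ClassGroup (𝓞 L)} (hx : x ^ p = 1) :
    x ∈ (ClassGroup.extendedHom (𝓞 F) (𝓞 L)).range := by
  have : NeZero (p ^ (n + 2)) := ⟨pow_ne_zero _ hp.out.ne_zero⟩
  have : NeZero (p ^ (n + 1)) := ⟨pow_ne_zero _ hp.out.ne_zero⟩
  have : IsGalois ℚ L := IsCyclotomicExtension.isGalois {p ^ (n + 2)} ℚ L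
  have : IsGalois F L := IsGalois.tower_top_of_isGalois ℚ F L
  have hdeg : Module.finrank F L = p := by
    have h := Module.finrank_mul_finrank ℚ F L
    rw [IsCyclotomicExtension.Rat.finrank (p ^ (n + 1)) F, IsCyclotomicExtension.Rat.finrank (p ^ (n + 2)) L,
      Nat.totient_prime_pow_succ hp.out, Nat.totient_prime_pow_succ hp.out, pow_succ p n, mul_right_comm] at h
    exact Nat.eq_of_mul_eq_mul_left (pow_pos hp.out.pos n)
      (Nat.eq_of_mul_eq_mul_right (Nat.sub_pos_of_lt hp.out.one_lt) h)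
  have hG : IsCyclic (L ≃ₐ[F] L) :=
    isCyclic_of_prime_card (p := p) (by rw [IsGalois.card_aut_eq_finrank, hdeg])
  obtain ⟨σ, hσ⟩ := hG.exists_generator
  have hζL := IsCyclotomicExtension.zeta_spec (p ^ (n + 2)) ℚ L
  set z := IsCyclotomicExtension.zeta (p ^ (n + 2)) ℚ L
  have hlam : Prime (hζL.toInteger - 1) := hζL.zeta_sub_one_prime
  have hπ : (Ideal.span {hζL.toInteger - 1}).IsMaximal :=
    ((Ideal.span_singleton_prime hlam.ne_zero).mpr hlam).isMaximal
      fun e => hlam.ne_zero (Ideal.span_singleton_eq_bot.mp e)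
  have hπfix : ∀ g : L ≃ₐ[F] L, g • Ideal.span {hζL.toInteger - 1} = Ideal.span {hζL.toInteger - 1} := fun g => by
    obtain ⟨w, -, hw⟩ := FA.CycloTower.exists_smul_lam hζL.toInteger_isPrimitiveRoot g
    rw [FA.CycloTower.smul_span, hw, Ideal.span_singleton_mul_left_unit w.isUnit]
  have hodd : Odd p := hp.out.odd_of_ne_two hp2
  -- roots of unity are norms
  have hμ : ∀ η ∈ Units.torsion F, ∃ ξ : (𝓞 L)ˣ, normU F ξ = η := by
    have hzp : IsPrimitiveRoot (z ^ p) (p ^ (n + 1)) := hζL.pow (pow_pos hp.out.pos _) (pow_succ' p (n + 1))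
    have hζF := IsCyclotomicExtension.zeta_spec (p ^ (n + 1)) ℚ F
    set w := IsCyclotomicExtension.zeta (p ^ (n + 1)) ℚ F
    obtain ⟨i, -, hi⟩ := hzp.eq_pow_of_pow_eq_one (ξ := algebraMap F L w)
      (by rw [← map_pow, hζF.pow_eq_one, map_one])
    have hω : IsPrimitiveRoot (z ^ p ^ (n + 1)) p := hζL.pow (pow_pos hp.out.pos _) (pow_succ p (n + 1))
    obtain ⟨c, hc'⟩ : ∃ c : F, z ^ p = algebraMap F L c := by
      obtain ⟨j, -, hj⟩ := (hζF.map_of_injective (f := algebraMap F L) (algebraMap F L).injective).eq_pow_of_pow_eq_one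
        (ξ := z ^ p) hzp.pow_eq_one
      exact ⟨w ^ j, by rw [map_pow, hj]⟩
    have hN := (FA.CycloTower.norm_of_pow_eq hdeg hω hc' (hζL.ne_zero (NeZero.ne _))
      fun g h e => FA.CycloTower.aut_ext_of_primitive hζL e).1
    rw [show (-1 : F) ^ (p + 1) = 1 from hodd.add_one.neg_one_pow, one_mul] at hN
    obtain ⟨zu, hzu⟩ := hζL.toInteger_isPrimitiveRoot.isUnit (NeZero.ne _)
    intro η hη
    replace hη : IsOfFinOrder η := (CommGroup.mem_torsion _).mp hη
    have hfin : IsOfFinOrder ((η : 𝓞 F) : F) :=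
      (((algebraMap (𝓞 F) F).toMonoidHom.comp (Units.coeHom _)).isOfFinOrder hη : _)
    have hcF : IsPrimitiveRoot c (p ^ (n + 1)) :=
      IsPrimitiveRoot.of_map_of_injective (f := algebraMap F L) (hc' ▸ hzp) (algebraMap F L).injective
    obtain ⟨r, -, hr⟩ := hcF.exists_pow_or_neg_mul_pow_of_isOfFinOrder hodd.pow hfin
    have hNu : ((normU F zu : 𝓞 F) : F) = c := by
      rw [FA.CycloTower.normU_coe, hzu]
      exact hN
    have hNneg : ((normU F (-1 : (𝓞 L)ˣ) : 𝓞 F) : F) = -1 := by
      rw [FA.CycloTower.normU_coe]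
      show Algebra.norm F (-1 : L) = -1
      rw [show (-1 : L) = algebraMap F L (-1) by simp, Algebra.norm_algebraMap, hdeg, hodd.neg_one_pow]
    rcases hr with hr | hr
    · exact ⟨zu ^ r, Units.ext (RingOfIntegers.ext (by
        rw [map_pow, Units.val_pow_eq_pow_val]
        simp [hNu, hr]))⟩
    · exact ⟨-1 * zu ^ r, Units.ext (RingOfIntegers.ext (by
        rw [map_mul, map_pow, Units.val_mul, Units.val_pow_eq_pow_val]
        simp [hNu, hNneg, hr]))⟩
  refine mem_range_of_fixed hσ hπ hπfix (fun P _ hP hπP => FA.CycloTower.ramificationIdx_eq_one hζL hP hπP) hμ hodd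
    hdeg hx (conjClass_eq_inv hp.out hplus hx) ?_
  have e : actCl (σ.restrictScalars ℚ) x = x := by
    refine fixed_of_order_p (n := n + 1) hp2 hg hc hplus ?_ hx
    have h1 : σ ^ p = 1 := by rw [← hdeg, ← IsGalois.card_aut_eq_finrank]; exact pow_card_eq_one'
    rw [pow_succ, pow_mul']
    have h2 : (σ.restrictScalars ℚ) ^ p = 1 := by
      refine AlgEquiv.ext fun y => ?_
      have h3 : ∀ j : ℕ, ((σ.restrictScalars ℚ) ^ j) y = (σ ^ j) y := fun j => by
        induction j with
        | zero => rfl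
        | succ j ih => rw [pow_succ', pow_succ', AlgEquiv.mul_apply, AlgEquiv.mul_apply, ih]; rfl
      rw [h3, h1]
      rfl
    rw [h2, one_pow]
  have e' : MulSemiringAction.toRingEquiv (L ≃ₐ[ℚ] L) (𝓞 L) (σ.restrictScalars ℚ) =
      MulSemiringAction.toRingEquiv (L ≃ₐ[F] L) (𝓞 L) σ := RingEquiv.ext fun y => RingOfIntegers.ext rfl
  show ClassGroup.mulEquiv _ x = x
  rw [← e']
  exact e

/-- **The `p`-part stays cyclic in the tower.** -/
theorem rankLeOne_tower (hp5 : 5 ≤ p) (hg : IsGen p g)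
    (hc : ∀ u ∈ oddU p, (p : ℤ_[p]) ∣ (sys hg u 0).coeff 0 → ¬ (p : ℤ_[p]) ∣ (sys hg u 1).coeff 1)
    (hplus : ∀ (n : ℕ) (L : Type) [Field L] [NumberField L] [IsCyclotomicExtension {p ^ (n + 1)} ℚ L],
      ¬ p ∣ classNumber (maximalRealSubfield L))
    (hbase : ∀ (F : Type) [Field F] [NumberField F] [IsCyclotomicExtension {p} ℚ F],
      RankLeOne p (ClassGroup (𝓞 F))) :
    ∀ (n : ℕ) (L : Type) [Field L] [NumberField L] [IsCyclotomicExtension {p ^ (n + 1)} ℚ L],
      RankLeOne p (ClassGroup (𝓞 L)) := by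
  intro n
  induction n with
  | zero =>
    intro L _ _ _
    have : IsCyclotomicExtension {p} ℚ L := by
      have h := (inferInstance : IsCyclotomicExtension {p ^ (0 + 1)} ℚ L)
      rwa [zero_add, pow_one] at h
    exact hbase L
  | succ n ih =>
    intro L _ _ _
    have : NeZero (p ^ (n + 2)) := ⟨pow_ne_zero _ hp.out.ne_zero⟩
    have : NeZero (p ^ (n + 1)) := ⟨pow_ne_zero _ hp.out.ne_zero⟩
    have hζL := IsCyclotomicExtension.zeta_spec (p ^ (n + 2)) ℚ L
    have hζp := hζL.pow (pow_pos hp.out.pos _) (pow_succ' p (n + 1))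
    set F := IntermediateField.adjoin ℚ {(IsCyclotomicExtension.zeta (p ^ (n + 2)) ℚ L) ^ p}
    have : IsCyclotomicExtension {p ^ (n + 1)} ℚ F := hζp.intermediateField_adjoin_isCyclotomicExtension ℚ
    have : IsCMField L := IsCyclotomicExtension.Rat.isCMField L (S := {p ^ (n + 2)})
      ⟨_, rfl, lt_of_lt_of_le (show 2 < p by omega) (Nat.le_self_pow (by omega) p)⟩
    have : IsCMField F := IsCyclotomicExtension.Rat.isCMField F (S := {p ^ (n + 1)})
      ⟨_, rfl, lt_of_lt_of_le (show 2 < p by omega) (Nat.le_self_pow (by omega) p)⟩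
    exact rankLeOne_of_range _ (ih F) fun a ha =>
      orderP_mem_range (n := n) (F := F) (by omega) hg hc (hplus (n + 1) L) ha

end FA.IwasawaStructure
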