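import Fermat.Agent.IwasawaMinus.Certificate
import Fermat.Agent.Root.SummaryPadicZeta

/-!
# A branch and the `p`-adic zeta function

Voronoi's congruence identifies the value of the Stickelberger polynomial of level `n` at `g^(m-1)`, up to units, with
the value `(1 - p^(m-1)) B_m / m` modulo `p^(n+1)`. If the branch of an irregular pair has a unit linear coefficient
these values separate the `t` modulo `p^n`, so the interpolating function has exactly one zero.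
-/

set_option autoImplicit false
set_option linter.style.haveILetI false

noncomputable section

open Polynomial FA.OrderTheta

namespace FA.IwasawaStructure

open FA.IwasawaMinus (IsGen res coefE poly sys cOf oddU teich toZMod_teich sys_compatible genUnit genUnit_val
  exists_pow_genUnit orderOf_gen_mod)

variable {p : ℕ} [hp : Fact p.Prime] {g : ℕ}

theorem dvd_iff_toZModPow {N : ℕ} {x : ℤ_[p]} : (p : ℤ_[p]) ^ N ∣ x ↔ PadicInt.toZModPow N x = 0 := by
  rw [← RingHom.mem_ker, PadicInt.ker_toZModPow, Ideal.mem_span_singleton]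

theorem dvd_iff_toZMod {x : ℤ_[p]} : (p : ℤ_[p]) ∣ x ↔ PadicInt.toZMod x = 0 := by
  rw [← RingHom.mem_ker, PadicInt.ker_toZMod, PadicInt.maximalIdeal_eq_span_p, Ideal.mem_span_singleton]

theorem isUnit_iff_toZMod {x : ℤ_[p]} : IsUnit x ↔ PadicInt.toZMod x ≠ 0 := by
  rw [Ne, ← dvd_iff_toZMod, ← PadicInt.norm_lt_one_iff_dvd, PadicInt.isUnit_iff]
  exact ⟨fun h => by rw [h]; exact lt_irrefl _, fun h => le_antisymm (PadicInt.norm_le_one x) (not_lt.mp h)⟩

/-- Congruent rationals give congruent `p`-adic integers. -/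
theorem dvd_sub_of_ratCong {N : ℕ} {x y : ℤ_[p]} {a b : ℚ} (hx : (x : ℚ_[p]) = a) (hy : (y : ℚ_[p]) = b)
    (h : RatCongPow p N a b) : (p : ℤ_[p]) ^ N ∣ x - y := by
  obtain ⟨t, ht, e⟩ := h
  refine ⟨⟨(t : ℚ_[p]), Padic.norm_rat_le_one ht⟩, Subtype.ext ?_⟩
  show (x : ℚ_[p]) - (y : ℚ_[p]) = (((p : ℤ_[p]) ^ N : ℤ_[p]) : ℚ_[p]) * (t : ℚ_[p])
  rw [hx, hy, e, PadicInt.coe_pow, PadicInt.coe_natCast]
  push_cast
  ring

/-- A generator is no root of unity of order dividing `m`. -/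
theorem gen_pow_ne_one (hg : IsGen p g) {m : ℕ} (hm : ¬ p - 1 ∣ m) : (g : ZMod p) ^ m ≠ 1 := fun h =>
  hm (orderOf_gen_mod hg ▸ orderOf_dvd_of_pow_eq_one h)

theorem isUnit_gen_pow_sub_one (hg : IsGen p g) {m : ℕ} (hm : ¬ p - 1 ∣ m) : IsUnit ((g : ℤ_[p]) ^ m - 1) := by
  rw [isUnit_iff_toZMod, map_sub, map_pow, map_natCast, map_one, sub_ne_zero]
  exact gen_pow_ne_one hg hm

theorem isUnit_gen (hg : IsGen p g) : IsUnit (g : ℤ_[p]) := by
  rw [isUnit_iff_toZMod, map_natCast]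
  exact FA.IwasawaMinus.gen_ne_zero hg

/-- The odd power sum over the units vanishes. -/
theorem sum_units_pow_eq_zero (hp2 : p ≠ 2) (n : ℕ) {e : ℕ} (he : Odd e) :
    ∑ r ∈ (Finset.range (p ^ (n + 1))).filter (fun r => ¬ p ∣ r), (r : ZMod (p ^ (n + 1))) ^ e = 0 := by
  set N := p ^ (n + 1) with hN
  have hodd : Odd N := (hp.out.odd_of_ne_two hp2).pow
  refine Finset.sum_involution (fun r _ => N - r) (fun r hr => ?_) (fun r hr _ => ?_) (fun r hr => ?_) fun r hr => ?_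
  · rw [Finset.mem_filter, Finset.mem_range] at hr
    rw [Nat.cast_sub hr.1.le, ZMod.natCast_self, zero_sub, he.neg_pow, add_neg_cancel]
  · rw [Finset.mem_filter, Finset.mem_range] at hr
    obtain ⟨c, hc⟩ := hodd
    omega
  · rw [Finset.mem_filter, Finset.mem_range] at hr ⊢
    refine ⟨Nat.sub_lt (pow_pos hp.out.pos _) (Nat.pos_of_ne_zero fun e => hr.2 (e ▸ dvd_zero p)), fun h => hr.2 ?_⟩
    have h2 : p ∣ N := dvd_pow_self p (Nat.succ_ne_zero n)
    exact (Nat.dvd_add_right h).mp (by rwa [Nat.sub_add_cancel hr.1.le])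
  · rw [Finset.mem_filter, Finset.mem_range] at hr
    omega

/-- The sum over the powers of a generator is the sum over the units. -/
theorem sum_res_eq_sum_units (hg : IsGen p g) (n : ℕ) {M : Type*} [AddCommMonoid M] (f : ℕ → M) :
    ∑ k ∈ Finset.range ((p - 1) * p ^ n), f (res p g n k) =
      ∑ r ∈ (Finset.range (p ^ (n + 1))).filter (fun r => ¬ p ∣ r), f r := by
  haveI : NeZero (p ^ (n + 1)) := ⟨pow_ne_zero _ hp.out.ne_zero⟩
  have hgu : IsUnit (g : ZMod (p ^ (n + 1))) := ⟨genUnit hg n, genUnit_val hg n⟩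
  refine Finset.sum_bij (fun k _ => res p g n k) (fun k _ => ?_) (fun a ha b hb h => ?_) (fun r hr => ?_)
    fun k _ => rfl
  · refine Finset.mem_filter.mpr ⟨Finset.mem_range.mpr (ZMod.val_lt _), fun hd => ?_⟩
    have hco : (res p g n k).Coprime (p ^ (n + 1)) := by
      rw [res, ← (hgu.pow k).unit_spec]
      exact ZMod.val_coe_unit_coprime _
    exact hp.out.coprime_iff_not_dvd.mp ((Nat.coprime_pow_right_iff (Nat.succ_pos n) _ _).mp hco).symm hd
  · have h' := ZMod.val_injective _ h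
    exact pow_injOn_Iio_orderOf (by simpa [hg.2 n] using Finset.mem_range.mp ha)
      (by simpa [hg.2 n] using Finset.mem_range.mp hb) h'
  · rw [Finset.mem_filter, Finset.mem_range] at hr
    have hu : IsUnit (r : ZMod (p ^ (n + 1))) :=
      (ZMod.isUnit_iff_coprime _ _).mpr (Nat.Coprime.pow_right _ (hp.out.coprime_iff_not_dvd.mpr hr.2).symm)
    obtain ⟨k, hk, hk'⟩ := exists_pow_genUnit hg n hu.unit
    refine ⟨k, Finset.mem_range.mpr hk, ?_⟩
    have e := congrArg (fun x : (ZMod (p ^ (n + 1)))ˣ => (x : ZMod (p ^ (n + 1))).val) hk'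
    simp only [Units.val_pow_eq_pow_val, genUnit_val, IsUnit.unit_spec] at e
    rw [res, e, ZMod.val_natCast, Nat.mod_eq_of_lt hr.1]

/-- The Stickelberger polynomial with the multiplier `g`, over `ℤ_p`. -/
def stickPoly (p g n : ℕ) [Fact p.Prime] : ℤ_[p][X] := (poly p g g n).map (Int.castRingHom ℤ_[p])

/-- **Voronoi's congruence as the value of a branch.** -/
theorem eval_stickPoly_zetaValue (hp5 : 5 ≤ p) (hg : IsGen p g) {k : ℕ} (hk : 2 ≤ k) (hkp : k ≤ p - 3)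
    (hev : Even k) (t n : ℕ) :
    (p : ℤ_[p]) ^ (n + 1) ∣ (g : ℤ_[p]) ^ (k + (p - 1) * t - 1) *
        (stickPoly p g n).eval ((g : ℤ_[p]) ^ (k + (p - 1) * t - 1)) +
      2 * ((g : ℤ_[p]) ^ (k + (p - 1) * t) - 1) * zetaValue p k t := by
  obtain ⟨hm, hmev, hmd⟩ := exponent_facts hp5 hk hkp hev t
  set m := k + (p - 1) * t with hmdef
  have hga : (g : ZMod p) ≠ 0 := FA.IwasawaMinus.gen_ne_zero hg
  have hcong := unitVoronoi_congruence hp5 (Nat.succ_pos n) hm hmev (a := g) hga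
  have h1 : (p : ℤ_[p]) ^ (n + 1) ∣ -((g : ℤ_[p]) ^ m - 1) * zetaValue p k t -
      ((unitVoronoiSum p g m (n + 1) : ℕ) : ℤ_[p]) :=
    dvd_sub_of_ratCong (b := (unitVoronoiSum p g m (n + 1) : ℕ)) (by
      rw [PadicInt.coe_mul, PadicInt.coe_neg, PadicInt.coe_sub, PadicInt.coe_pow, PadicInt.coe_natCast,
        PadicInt.coe_one, zetaValue_coe hp5 hk hkp hev, ← hmdef, eulerBernoulli]
      push_cast
      ring) (by rw [PadicInt.coe_natCast]; push_cast; rfl) hcong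
  have h2 : (p : ℤ_[p]) ^ (n + 1) ∣ (g : ℤ_[p]) ^ (m - 1) * (stickPoly p g n).eval ((g : ℤ_[p]) ^ (m - 1)) -
      2 * ((unitVoronoiSum p g m (n + 1) : ℕ) : ℤ_[p]) := by
    rw [dvd_iff_toZModPow, map_sub, map_mul, map_mul, map_natCast, map_ofNat, map_pow, map_natCast, sub_eq_zero]
    set R := ZMod (p ^ (n + 1))
    have hres : ∀ i, ((g : R) ^ (m - 1)) ^ i = ((res p g n i : ℕ) : R) ^ (m - 1) := fun i => by
      haveI : NeZero (p ^ (n + 1)) := ⟨pow_ne_zero _ hp.out.ne_zero⟩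
      rw [res, ZMod.natCast_zmod_val, ← pow_mul, ← pow_mul, mul_comm]
    rw [stickPoly, eval_map, poly, eval₂_finsetSum, map_sum]
    simp only [eval₂_mul, eval₂_C, eval₂_X_pow]
    simp only [map_mul, map_pow, map_natCast, hres, coefE, map_sub, map_add, map_one, map_ofNat]
    rw [sum_res_eq_sum_units hg n
      (fun r => (2 * ((g * r / p ^ (n + 1) : ℕ) : R) + 1 - (g : R)) * (r : R) ^ (m - 1)), unitVoronoiSum, Nat.cast_mul,
      Nat.cast_sum, Nat.cast_pow, Finset.mul_sum, Finset.mul_sum, Finset.mul_sum]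
    have hzero := sum_units_pow_eq_zero (p := p) (by omega) n (e := m - 1) (Nat.Even.sub_odd (by omega) hmev odd_one)
    have hterm : ∀ r : ℕ,
        (g : R) ^ (m - 1) * ((2 * ((g * r / p ^ (n + 1) : ℕ) : R) + 1 - (g : R)) * (r : R) ^ (m - 1)) =
          2 * ((g : R) ^ (m - 1) * ((r ^ (m - 1) * (g * r / p ^ (n + 1)) : ℕ) : R)) +
            (g : R) ^ (m - 1) * (1 - (g : R)) * (r : R) ^ (m - 1) := fun r => by
      rw [Nat.cast_mul, Nat.cast_pow]
      ring
    rw [Finset.sum_congr rfl fun r _ => hterm r]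
    rw [Finset.sum_add_distrib, ← Finset.mul_sum (a := (g : R) ^ (m - 1) * (1 - (g : R))), hzero, mul_zero, add_zero]
  obtain ⟨c₁, hc₁⟩ := h1
  obtain ⟨c₂, hc₂⟩ := h2
  exact ⟨c₂ - 2 * c₁, by linear_combination hc₂ - 2 * hc₁⟩

/-- A polynomial near `0`. -/
theorem exists_eval_sub_eq (P : ℤ_[p][X]) {x y : ℤ_[p]} (hx : (p : ℤ_[p]) ∣ x) (hy : (p : ℤ_[p]) ∣ y) :
    ∃ Q, P.eval x - P.eval y = (x - y) * (P.coeff 1 + p * Q) := by
  obtain ⟨a, rfl⟩ := hx
  obtain ⟨b, rfl⟩ := hy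
  set R := P.divX.divX
  obtain ⟨d, hd⟩ := sub_dvd_eval_sub ((p : ℤ_[p]) * a) (p * b) R
  have hP : ∀ z, P.eval z = (R.eval z * z + P.coeff 1) * z + P.coeff 0 := fun z => by
    have e1 := congrArg (fun f : ℤ_[p][X] => f.eval z) P.divX_mul_X_add
    have e2 := congrArg (fun f : ℤ_[p][X] => f.eval z) P.divX.divX_mul_X_add
    simp only [eval_add, eval_mul, eval_X, eval_C, coeff_divX, zero_add] at e1 e2
    rw [← e1, ← e2]
  refine ⟨(a + b) * R.eval ((p : ℤ_[p]) * a) + p * b ^ 2 * d, ?_⟩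
  rw [hP, hP]
  linear_combination ((p : ℤ_[p]) ^ 2 * b ^ 2) * hd

/-- The irregular branch is divisible by `p`. -/
theorem dvd_zetaValue (hp5 : 5 ≤ p) {k : ℕ} (hk : 2 ≤ k) (hkp : k ≤ p - 3) (hev : Even k)
    (hB : (p : ℤ) ∣ (_root_.bernoulli k).num) (t : ℕ) : (p : ℤ_[p]) ∣ zetaValue p k t := by
  obtain ⟨h1, h2, h3⟩ := exponent_facts hp5 hk hkp hev t
  obtain ⟨h1', h2', h3'⟩ := exponent_facts hp5 hk hkp hev 0
  simp only [mul_zero, add_zero] at h1' h2' h3'
  have hmod : k + (p - 1) * t ≡ k [MOD p ^ (1 - 1) * (p - 1)] := by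
    rw [Nat.sub_self, pow_zero, one_mul]
    exact Nat.modEq_iff_dvd.mpr ⟨-(t : ℤ), by push_cast; ring⟩
  obtain ⟨w, hw, e⟩ := eulerBernoulli_congr hp5 le_rfl h1 h1' h2 h2' h3 hmod
  obtain ⟨z, hz⟩ := hB
  have hden : PIntegral p (_root_.bernoulli k) := pIntegral_bernoulli k (by omega)
  have hk0 : PIntegral p ((k : ℚ)⁻¹) := PIntegral.inv_natCast fun hd => by
    have := Nat.le_of_dvd (by omega) hd
    omega
  have hfac : eulerBernoulli p k = ((p ^ 1 : ℕ) : ℚ) * ((1 - (p : ℚ) ^ (k - 1)) *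
      ((z : ℚ) * ((_root_.bernoulli k).den : ℚ)⁻¹) * (k : ℚ)⁻¹) := by
    rw [eulerBernoulli, pow_one, div_eq_mul_inv]
    conv_lhs => rw [← Rat.num_div_den (_root_.bernoulli k), hz]
    push_cast
    ring
  have hint : PIntegral p ((1 - (p : ℚ) ^ (k - 1)) * ((z : ℚ) * ((_root_.bernoulli k).den : ℚ)⁻¹) * (k : ℚ)⁻¹) := by
    refine PIntegral.mul (PIntegral.mul ?_ ((PIntegral.intCast z).mul (PIntegral.inv_natCast hden))) hk0
    have := PIntegral.intCast (p := p) (1 - (p : ℤ) ^ (k - 1))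
    push_cast at this
    exact this
  have hcong : RatCongPow p 1 (-eulerBernoulli p (k + (p - 1) * t)) 0 := by
    refine ⟨((-1 : ℤ) : ℚ) * ((1 - (p : ℚ) ^ (k - 1)) * ((z : ℚ) * ((_root_.bernoulli k).den : ℚ)⁻¹) * (k : ℚ)⁻¹ + w),
      (PIntegral.intCast _).mul (hint.add hw), ?_⟩
    rw [e, hfac]
    push_cast
    ring
  simpa using dvd_sub_of_ratCong (x := zetaValue p k t) (y := 0) (zetaValue_coe hp5 hk hkp hev t)
    (by rw [Rat.cast_zero]; rfl) hcong

/-- The branch of `k`. -/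
theorem exists_branch (hp2 : p ≠ 2) (hg : IsGen p g) {k : ℕ} (hk : 2 ≤ k) (hkp : k ≤ p - 3) (hev : Even k) :
    ∃ u : (ZMod p)ˣ, (u : ZMod p) = (g : ZMod p) ^ (k - 1) ∧ u ∈ oddU p ∧ cOf hg u = g := by
  refine ⟨Units.mk0 _ (pow_ne_zero _ (FA.IwasawaMinus.gen_ne_zero hg)), rfl, ?_, ?_⟩
  · refine Finset.mem_filter.mpr ⟨Finset.mem_univ _, ?_⟩
    have h := FA.IwasawaMinus.pow_half_eq_neg_one hp2 hg 0
    rw [pow_zero, mul_one] at h
    have h' := FA.IwasawaMinus.generator_pow_eq (z := -1) (h.trans (by simp))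
    rw [Units.val_mk0, ← pow_mul, mul_comm, pow_mul, h', Int.cast_neg, Int.cast_one,
      (Nat.Even.sub_odd (by omega) hev odd_one).neg_one_pow]
  · rw [cOf, if_neg]
    intro h
    rw [FA.IwasawaMinus.eq_poleU_iff, Units.val_mk0, ← pow_succ', Nat.sub_add_cancel (by omega)] at h
    refine gen_pow_ne_one hg (fun hd => ?_) h
    have := Nat.le_of_dvd (by omega) hd
    omega

variable (hp5 : 5 ≤ p) (hg : IsGen p g)
  (hc : ∀ u ∈ oddU p, (p : ℤ_[p]) ∣ (sys hg u 0).coeff 0 → ¬ (p : ℤ_[p]) ∣ (sys hg u 1).coeff 1)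
  {k : ℕ} (hk : 2 ≤ k) (hkp : k ≤ p - 3) (hev : Even k) (hB : (p : ℤ) ∣ (_root_.bernoulli k).num)

include hp5 hg hk hkp hev hB in
/-- The constant coefficient of the branch of `k` is divisible by `p`. -/
theorem dvd_coeff_zero_branch {u : (ZMod p)ˣ} (hu : (u : ZMod p) = (g : ZMod p) ^ (k - 1)) (hc' : cOf hg u = g) :
    (p : ℤ_[p]) ∣ (sys hg u 0).coeff 0 := by
  have h := eval_stickPoly_zetaValue hp5 hg hk hkp hev 0 0
  rw [zero_add, pow_one, mul_zero, add_zero] at h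
  have h2 : (p : ℤ_[p]) ∣ (stickPoly p g 0).eval ((g : ℤ_[p]) ^ (k - 1)) :=
    (((isUnit_gen hg).pow _).dvd_mul_left).mp
      ((dvd_add_left ((dvd_zetaValue hp5 hk hkp hev hB 0).mul_left _)).mp h)
  have h3 := sub_dvd_eval_sub (teich u) ((g : ℤ_[p]) ^ (k - 1)) (stickPoly p g 0)
  have h4 : (p : ℤ_[p]) ∣ teich u - (g : ℤ_[p]) ^ (k - 1) := by
    rw [dvd_iff_toZMod, map_sub, toZMod_teich, map_pow, map_natCast, hu, sub_self]
  rw [sys, hc', coeff_zero_eq_eval_zero, eval_comp]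
  simp only [eval_mul, eval_C, eval_add, eval_one, eval_X, add_zero, mul_one]
  exact (dvd_sub_left h2).mp (h4.trans h3)

include hp5 hg hc hk hkp hev hB in
/-- **The values separate the exponents.** -/
theorem dvd_zetaValue_sub_iff (n t t' : ℕ) :
    (p : ℤ_[p]) ^ (n + 1) ∣ zetaValue p k t - zetaValue p k t' ↔ t ≡ t' [MOD p ^ n] := by
  rcases Nat.eq_zero_or_pos n with rfl | hn
  · rw [zero_add, pow_one, pow_zero]
    exact iff_of_true (dvd_sub (dvd_zetaValue hp5 hk hkp hev hB t) (dvd_zetaValue hp5 hk hkp hev hB t')) Nat.modEq_one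
  haveI : NeZero (p ^ (n + 1)) := ⟨pow_ne_zero _ hp.out.ne_zero⟩
  obtain ⟨u, hu, hodd, hcu⟩ := exists_branch (by omega : p ≠ 2) hg hk hkp hev
  have hc1 : IsUnit ((sys hg u n).coeff 1) := by
    rw [isUnit_iff_toZMod, Ne, ← dvd_iff_toZMod]
    intro hd
    refine hc u hodd (dvd_coeff_zero_branch hp5 hg hk hkp hev hB hu hcu) ?_
    simpa using ((sys_compatible hg u).dvd_coeff_iff (show 1 ≤ n by omega) (show 0 + 1 ≤ 1 + 1 - 1 by omega)).mp
      (by rwa [zero_add, pow_one])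
  set T := teich u
  set Ti := T ^ (p - 2)
  have hTi : T * Ti = 1 := by
    rw [← pow_succ', show p - 2 + 1 = p - 1 by omega]
    exact FA.IwasawaMinus.teich_pow_card u
  set z : ℕ → ℤ_[p] := fun s => (g : ℤ_[p]) ^ (k + (p - 1) * s - 1) with hz
  have hzu : ∀ s, PadicInt.toZMod (z s) = (u : ZMod p) := fun s => by
    simp only [hz]
    rw [map_pow, map_natCast, show k + (p - 1) * s - 1 = k - 1 + (p - 1) * s by omega, pow_add, pow_mul,
      ZMod.pow_card_sub_one_eq_one (FA.IwasawaMinus.gen_ne_zero hg), one_pow, mul_one, hu]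
  have hx : ∀ s, (p : ℤ_[p]) ∣ z s * Ti - 1 := fun s => by
    rw [dvd_iff_toZMod, map_sub, map_mul, hzu, ← toZMod_teich u, ← map_mul, hTi, map_one, sub_self]
  have hf : ∀ s, (stickPoly p g n).eval (z s) = (sys hg u n).eval (z s * Ti - 1) := fun s => by
    rw [sys, hcu, eval_comp, stickPoly]
    simp only [eval_mul, eval_C, eval_add, eval_one, eval_X, add_sub_cancel]
    rw [mul_left_comm, hTi, mul_one]
  have hfp : ∀ s, (p : ℤ_[p]) ∣ (stickPoly p g n).eval (z s) := fun s => by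
    have h := (dvd_pow_self (p : ℤ_[p]) (Nat.succ_ne_zero n)).trans (eval_stickPoly_zetaValue hp5 hg hk hkp hev s n)
    exact (((isUnit_gen hg).pow _).dvd_mul_left).mp
      ((dvd_add_left ((dvd_zetaValue hp5 hk hkp hev hB s).mul_left _)).mp h)
  obtain ⟨Q, hQ⟩ := exists_eval_sub_eq (sys hg u n) (hx t) (hx t')
  rw [← hf, ← hf] at hQ
  obtain ⟨ft, hft⟩ := hfp t'
  obtain ⟨ζ', hζ'⟩ := dvd_zetaValue hp5 hk hkp hev hB t'
  set D := z t - z t'
  set A := z t * Ti * ((sys hg u n).coeff 1 + p * Q) + p * ft + 2 * g * (p * ζ') with hA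
  have hAu : IsUnit A := by
    rw [isUnit_iff_toZMod, hA]
    simp only [map_add, map_mul, map_natCast, ZMod.natCast_self, zero_mul, mul_zero, add_zero]
    refine mul_ne_zero (mul_ne_zero (hzu t ▸ u.ne_zero) ?_) (isUnit_iff_toZMod.mp hc1)
    exact isUnit_iff_toZMod.mp ((IsUnit.of_mul_eq_one_right T hTi))
  have hg1 : IsUnit (2 * ((g : ℤ_[p]) ^ (k + (p - 1) * t) - 1)) := by
    refine IsUnit.mul ?_ (isUnit_gen_pow_sub_one hg (exponent_facts hp5 hk hkp hev t).2.2)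
    rw [isUnit_iff_toZMod, map_ofNat]
    exact fun h => by
      have := Nat.le_of_dvd two_pos ((ZMod.natCast_eq_zero_iff 2 p).mp (by exact_mod_cast h))
      omega
  have hzm : ∀ s, (g : ℤ_[p]) ^ (k + (p - 1) * s) = g * z s := fun s => by
    simp only [hz]
    rw [← pow_succ', Nat.sub_add_cancel (by omega)]
  have hmain : (p : ℤ_[p]) ^ (n + 1) ∣
      D * A + 2 * ((g : ℤ_[p]) ^ (k + (p - 1) * t) - 1) * (zetaValue p k t - zetaValue p k t') := by
    have h1 := eval_stickPoly_zetaValue hp5 hg hk hkp hev t n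
    have h2 := eval_stickPoly_zetaValue hp5 hg hk hkp hev t' n
    refine (dvd_sub h1 h2).trans (dvd_of_eq ?_)
    have e : D = z t - z t' := rfl
    have hzt : ∀ s, (g : ℤ_[p]) ^ (k + (p - 1) * s - 1) = z s := fun s => rfl
    rw [hzt t, hzt t', hzm t, hzm t', hft, hA, e, hζ']
    rw [hft] at hQ
    linear_combination z t * hQ
  have hD : (p : ℤ_[p]) ^ (n + 1) ∣ D ↔ t ≡ t' [MOD p ^ n] := by
    rw [dvd_iff_toZModPow, map_sub, sub_eq_zero]
    simp only [hz, map_pow, map_natCast]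
    rw [IsOfFinOrder.pow_eq_pow_iff_modEq (orderOf_pos_iff.mp (by rw [hg.2 n]; exact FA.IwasawaMinus.phi_pos n)),
      hg.2 n, show k + (p - 1) * t - 1 = k - 1 + (p - 1) * t by omega,
      show k + (p - 1) * t' - 1 = k - 1 + (p - 1) * t' by omega]
    exact ⟨fun h => Nat.ModEq.mul_left_cancel' (by omega) (Nat.ModEq.add_left_cancel' (k - 1) h),
      fun h => (h.mul_left' _).add_left _⟩
  rw [← hD]
  constructor
  · intro h
    exact hAu.dvd_mul_right.mp ((dvd_add_left (h.mul_left _)).mp hmain)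
  · intro h
    exact hg1.dvd_mul_left.mp ((dvd_add_right (h.mul_right _)).mp hmain)

/-- Divisibility by powers determines the norm. -/
theorem norm_eq_of_dvd_iff {x y : ℤ_[p]} (h : ∀ N : ℕ, (p : ℤ_[p]) ^ N ∣ x ↔ (p : ℤ_[p]) ^ N ∣ y) : ‖x‖ = ‖y‖ := by
  have key : ∀ a b : ℤ_[p], (∀ N : ℕ, (p : ℤ_[p]) ^ N ∣ b → (p : ℤ_[p]) ^ N ∣ a) → ‖a‖ ≤ ‖b‖ := by
    intro a b hab
    have hN : ∀ N : ℕ, (p : ℤ_[p]) ^ N ∣ b → ‖a‖ ≤ (p : ℝ) ^ (-(N : ℤ)) := fun N hN =>
      (PadicInt.norm_le_pow_iff_mem_span_pow _ _).mpr (Ideal.mem_span_singleton.mpr (hab N hN))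
    by_cases hb : b = 0
    · subst hb
      rw [norm_zero]
      refine le_of_forall_gt_imp_ge_of_dense fun ε hε => ?_
      obtain ⟨N, hlt⟩ := PadicInt.exists_pow_neg_lt p hε
      exact (hN N (dvd_zero _)).trans hlt.le
    · rw [PadicInt.norm_eq_zpow_neg_valuation hb]
      exact hN _ (Ideal.mem_span_singleton.mp ((PadicInt.norm_le_pow_iff_mem_span_pow _ _).mp
        (PadicInt.norm_eq_zpow_neg_valuation hb).le))
  exact le_antisymm (key x y fun N => (h N).mpr) (key y x fun N => (h N).mp)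

include hp5 hg hc hk hkp hev hB in
/-- **Exactly one zero, a simple one.** -/
theorem interpolation_simple_zero {F : ℤ_[p] → ℤ_[p]} (hF : Continuous F)
    (hval : ∀ t : ℕ, F t = zetaValue p k t) :
    (∀ a b, ‖F a - F b‖ = ‖(p : ℤ_[p]) * (a - b)‖) ∧ ∃! s, F s = 0 := by
  have hnat : ∀ t t' : ℕ, ‖F t - F t'‖ = ‖(p : ℤ_[p]) * ((t : ℤ_[p]) - t')‖ := fun t t' => by
    rw [hval, hval]
    refine norm_eq_of_dvd_iff fun N => ?_
    rcases N with _ | n
    · simp
    rw [dvd_zetaValue_sub_iff hp5 hg hc hk hkp hev hB, pow_succ', mul_dvd_mul_iff_left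
      (Nat.cast_ne_zero.mpr hp.out.ne_zero), Nat.modEq_iff_dvd, dvd_sub_comm, ← Nat.cast_pow,
      show ((t : ℤ_[p]) - t') = (((t : ℤ) - t' : ℤ) : ℤ_[p]) by push_cast; ring]
    rw [Nat.cast_pow, Nat.cast_pow]
    exact (PadicInt.pow_p_dvd_int_iff n _).symm
  have hiso : ∀ a b, ‖F a - F b‖ = ‖(p : ℤ_[p]) * (a - b)‖ := by
    have hd : DenseRange (Prod.map (Nat.cast : ℕ → ℤ_[p]) (Nat.cast : ℕ → ℤ_[p])) :=
      PadicInt.denseRange_natCast.prodMap PadicInt.denseRange_natCast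
    have h1 : Continuous fun q : ℤ_[p] × ℤ_[p] => ‖F q.1 - F q.2‖ :=
      ((hF.comp continuous_fst).sub (hF.comp continuous_snd)).norm
    have h2 : Continuous fun q : ℤ_[p] × ℤ_[p] => ‖(p : ℤ_[p]) * (q.1 - q.2)‖ :=
      (continuous_const.mul (continuous_fst.sub continuous_snd)).norm
    have h := hd.equalizer h1 h2 (funext fun q : ℕ × ℕ => hnat q.1 q.2)
    exact fun a b => congrFun h (a, b)
  refine ⟨hiso, ?_⟩
  have happrox : ∀ n : ℕ, ∃ t : ℕ, (p : ℤ_[p]) ^ (n + 1) ∣ zetaValue p k t := fun n => by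
    haveI : NeZero (p ^ n) := ⟨pow_ne_zero _ hp.out.ne_zero⟩
    choose w hw using fun t : ℕ => dvd_zetaValue hp5 hk hkp hev hB t
    let φ : ZMod (p ^ n) → ZMod (p ^ n) := fun i => PadicInt.toZModPow n (w i.val)
    have hinj : Function.Injective φ := fun i j e => by
      simp only [φ, ← sub_eq_zero (a := PadicInt.toZModPow n (w i.val)), ← map_sub, ← dvd_iff_toZModPow] at e
      have h : (p : ℤ_[p]) ^ (n + 1) ∣ zetaValue p k i.val - zetaValue p k j.val := by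
        rw [hw, hw, ← mul_sub, pow_succ']
        exact mul_dvd_mul_left _ e
      have h' := (dvd_zetaValue_sub_iff hp5 hg hc hk hkp hev hB n _ _).mp h
      rwa [← ZMod.natCast_eq_natCast_iff, ZMod.natCast_zmod_val, ZMod.natCast_zmod_val] at h'
    obtain ⟨i, hi⟩ := Finite.surjective_of_injective hinj 0
    exact ⟨i.val, by rw [hw, pow_succ']; exact mul_dvd_mul_left _ (dvd_iff_toZModPow.mpr hi)⟩
  obtain ⟨s, hs⟩ : (0 : ℤ_[p]) ∈ Set.range F := by
    rw [← (isCompact_range hF).isClosed.closure_eq]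
    refine Metric.mem_closure_iff.mpr fun ε hε => ?_
    obtain ⟨N, hN⟩ := PadicInt.exists_pow_neg_lt p hε
    obtain ⟨t, ht⟩ := happrox N
    refine ⟨F t, ⟨t, rfl⟩, ?_⟩
    rw [dist_zero_left, hval]
    refine lt_of_le_of_lt ?_ hN
    exact (PadicInt.norm_le_pow_iff_mem_span_pow _ _).mpr
      (Ideal.mem_span_singleton.mpr ((pow_dvd_pow _ N.le_succ).trans ht))
  refine ⟨s, hs, fun s' hs' => ?_⟩
  have h := hiso s' s
  rw [hs, hs', sub_self, norm_zero, eq_comm, norm_eq_zero, mul_eq_zero, sub_eq_zero] at h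
  exact h.resolve_left (Nat.cast_ne_zero.mpr hp.out.ne_zero)

end FA.IwasawaStructure
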